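/-
S59, leaf S33-STRICT (helper43), part 3: THE VALUE GROUP OF THE INERTIA FIELD.

`P ⊂ ℚ̄` a valuation subring over `p`, `I` its inertia group, `K = ℚ̄^I`.
* `s59stv_exists_not_mem` : for `x ≠ 0` some `x / p^m ∉ P`  (`⋂ p^m P = 0`);
* `s59stv_val` (**VAL**) : `Kˣ = U · p^ℤ` : for `δ ≠ 0` fixed by `I` there is `e : ℤ` such that
  `u = δ · p^(-e)` is a unit of `P` (`u ∈ P`, `u⁻¹ ∈ P`).   (from `UNIP.beta0_div_mem`)
-/
import Fermat.Agent.UNIP.Beta0Abs

set_option autoImplicit false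
set_option linter.unusedSectionVars false
set_option linter.unusedVariables false
set_option linter.style.longLine false
set_option linter.style.haveILetI false

noncomputable section

namespace Fermat.Agent.S59

/-- `ℚ̄` -/
local notation "Qbar" => AlgebraicClosure ℚ

variable {p : ℕ} {P : ValuationSubring Qbar}

/-- integers are in `P` -/
theorem s59stv_int_mem (P : ValuationSubring Qbar) (z : ℤ) : (z : Qbar) ∈ P :=
  intCast_mem P z

/-- an integer prime to `p` is a unit of `P` -/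
theorem s59stv_inv_mem_of_not_dvd (hp : p.Prime) (hP : P.LiesOverPrime p) {m : ℕ}
    (hm : ¬ p ∣ m) : ((m : Qbar))⁻¹ ∈ P := by
  by_contra hinv
  have hmem : (m : Qbar) ∈ P.nonunits := by
    rw [ValuationSubring.mem_nonunits_iff_or]
    exact Or.inr hinv
  have hcop : Nat.Coprime p m := (Nat.Prime.coprime_iff_not_dvd hp).2 hm
  -- Bezout
  have hb : (p : ℤ) * Nat.gcdA p m + (m : ℤ) * Nat.gcdB p m = 1 := by
    have := Nat.gcd_eq_gcd_ab p m
    rw [hcop.gcd_eq_one] at this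
    exact_mod_cast this.symm
  have hb' : (p : Qbar) * (Nat.gcdA p m : Qbar) + (m : Qbar) * (Nat.gcdB p m : Qbar) = 1 := by
    exact_mod_cast congrArg (fun z : ℤ => (z : Qbar)) hb
  have h1 : (1 : Qbar) ∈ P.nonunits := by
    rw [← hb']
    have hp' : (p : Qbar) ∈ P.nonunits := hP
    rw [ValuationSubring.mem_nonunits_iff] at hp' hmem ⊢
    have ha : P.valuation ((Nat.gcdA p m : ℤ) : Qbar) ≤ 1 :=
      (P.valuation_le_one_iff _).2 (s59stv_int_mem P _)
    have hb2 : P.valuation ((Nat.gcdB p m : ℤ) : Qbar) ≤ 1 :=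
      (P.valuation_le_one_iff _).2 (s59stv_int_mem P _)
    refine lt_of_le_of_lt (Valuation.map_add _ _ _) (max_lt ?_ ?_)
    · rw [map_mul]
      exact mul_lt_one_of_lt_of_le hp' ha
    · rw [map_mul]
      exact mul_lt_one_of_lt_of_le hmem hb2
  rw [ValuationSubring.mem_nonunits_iff, map_one] at h1
  exact lt_irrefl _ h1

/-- `⋂ p^m P = 0` : for `x ≠ 0` some `x / p^m` is not in `P` -/
theorem s59stv_exists_not_mem (hp : p.Prime) (hP : P.LiesOverPrime p) {x : Qbar} (hx : x ≠ 0) :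
    ∃ m : ℕ, x / (p : Qbar) ^ m ∉ P := by
  haveI := Fermat.Agent.Common.isAlgClosure_rat_qbar
  have halgQ : IsAlgebraic ℚ x⁻¹ := Algebra.IsAlgebraic.isAlgebraic _
  have halg : IsAlgebraic ℤ x⁻¹ := (IsFractionRing.isAlgebraic_iff ℤ ℚ Qbar).2 halgQ
  obtain ⟨N, hN0, hNint⟩ := halg.exists_integral_multiple
  have hNmem : (N : Qbar) * x⁻¹ ∈ P := by
    have := Fermat.Agent.S13.Minkowski.mem_of_isIntegral_int P _ hNint
    rwa [zsmul_eq_mul] at this
  obtain ⟨m, hm⟩ : ∃ m : ℕ, N = (m : ℤ) ∨ N = -(m : ℤ) := ⟨N.natAbs, Int.natAbs_eq N⟩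
  have hnat : m ≠ 0 := by
    rintro rfl
    rcases hm with h | h <;> simp at h <;> exact hN0 h
  have habs : (m : Qbar) * x⁻¹ ∈ P := by
    rcases hm with h | h
    · rw [h, Int.cast_natCast] at hNmem
      exact hNmem
    · rw [h, Int.cast_neg, Int.cast_natCast, neg_mul] at hNmem
      have := P.neg_mem _ hNmem
      rwa [neg_neg] at this
  obtain ⟨k, N', hN', hNk⟩ := Nat.exists_eq_pow_mul_and_not_dvd hnat p hp.ne_one
  have hinv := s59stv_inv_mem_of_not_dvd hp hP hN'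
  -- `p^k x⁻¹ ∈ P`
  have hpk : (p : Qbar) ^ k * x⁻¹ ∈ P := by
    have hN'0 : (N' : Qbar) ≠ 0 := by
      intro h0
      have : N' = 0 := by exact_mod_cast h0
      exact hN' (this ▸ dvd_zero p)
    have e : (p : Qbar) ^ k * x⁻¹ = (m : Qbar) * x⁻¹ * ((N' : Qbar))⁻¹ := by
      rw [hNk]
      push_cast
      field_simp
    rw [e]
    exact P.mul_mem _ _ habs hinv
  refine ⟨k + 1, fun hmem => ?_⟩
  have h1 : ((p : Qbar))⁻¹ ∈ P := by
    have hp0 : (p : Qbar) ≠ 0 := Nat.cast_ne_zero.2 hp.ne_zero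
    have e : ((p : Qbar))⁻¹ = x / (p : Qbar) ^ (k + 1) * ((p : Qbar) ^ k * x⁻¹) := by
      rw [pow_succ]
      field_simp
    rw [e]
    exact P.mul_mem _ _ hmem hpk
  have h2 : (p : Qbar) ∈ P.nonunits := hP
  rw [ValuationSubring.mem_nonunits_iff_or] at h2
  rcases h2 with h2 | h2
  · exact hp.ne_zero (by exact_mod_cast h2)
  · exact h2 h1

/-- a nonzero element of `P ∩ K` is a unit of `P` times a power of `p` -/
theorem s59stv_val_of_mem (hp : p.Prime) (hP : P.LiesOverPrime p) {x : Qbar} (hx : x ≠ 0)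
    (hxP : x ∈ P) (hxK : ∀ τ ∈ P.inertiaSubgroupIn ℚ, τ x = x) :
    ∃ m : ℕ, x / (p : Qbar) ^ m ∈ P ∧ (x / (p : Qbar) ^ m)⁻¹ ∈ P := by
  classical
  have hex : ∃ m : ℕ, x / (p : Qbar) ^ m ∉ P := s59stv_exists_not_mem hp hP hx
  have hm : x / (p : Qbar) ^ (Nat.find hex) ∉ P := Nat.find_spec hex
  have hm0 : Nat.find hex ≠ 0 := by
    intro h
    rw [h, pow_zero, div_one] at hm
    exact hm hxP
  obtain ⟨j, hj⟩ := Nat.exists_eq_succ_of_ne_zero hm0
  have hjmem : x / (p : Qbar) ^ j ∈ P := by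
    by_contra h
    exact Nat.find_min hex (m := j) (by omega) h
  refine ⟨j, hjmem, ?_⟩
  by_contra hinv
  have hnon : x / (p : Qbar) ^ j ∈ P.nonunits := by
    rw [ValuationSubring.mem_nonunits_iff_or]
    exact Or.inr hinv
  have hK : x / (p : Qbar) ^ j ∈ Fermat.Agent.UNIP.beta0Field P := by
    rw [Fermat.Agent.UNIP.mem_beta0Field]
    intro σ hσ
    rw [map_div₀, map_pow, map_natCast, hxK σ hσ]
  have h := Fermat.Agent.UNIP.beta0_div_mem hp hP hK hnon
  apply hm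
  rw [hj, pow_succ, ← div_div]
  exact h

/-- **VAL** : `Kˣ = U · p^ℤ`.  For `δ ≠ 0` fixed by the inertia group there is `e : ℤ` such that
`δ · p^e` is a unit of `P`. -/
theorem s59stv_val (hp : p.Prime) (hP : P.LiesOverPrime p) {δ : Qbar} (hδ : δ ≠ 0)
    (hδK : ∀ τ ∈ P.inertiaSubgroupIn ℚ, τ δ = δ) :
    ∃ e : ℤ, δ * (p : Qbar) ^ e ∈ P ∧ (δ * (p : Qbar) ^ e)⁻¹ ∈ P := by
  have hp0 : (p : Qbar) ≠ 0 := Nat.cast_ne_zero.2 hp.ne_zero
  rcases P.mem_or_inv_mem δ with h | h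
  · obtain ⟨m, h1, h2⟩ := s59stv_val_of_mem hp hP hδ h hδK
    refine ⟨-(m : ℤ), ?_, ?_⟩
    · rw [zpow_neg, zpow_natCast, ← div_eq_mul_inv]
      exact h1
    · rw [zpow_neg, zpow_natCast, ← div_eq_mul_inv]
      exact h2
  · obtain ⟨m, h1, h2⟩ := s59stv_val_of_mem hp hP (inv_ne_zero hδ) h
      (fun τ hτ => by rw [map_inv₀, hδK τ hτ])
    refine ⟨(m : ℤ), ?_, ?_⟩
    · have e : δ * (p : Qbar) ^ m = (δ⁻¹ / (p : Qbar) ^ m)⁻¹ := by
        field_simp
      rw [zpow_natCast, e]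
      exact h2
    · have e : (δ * (p : Qbar) ^ m)⁻¹ = δ⁻¹ / (p : Qbar) ^ m := by
        field_simp
      rw [zpow_natCast, e]
      exact h1

end Fermat.Agent.S59

end
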