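/-
S59, wall (b) (W multiplicative at `p`, `ρ̄` NOT peu ramifié: `𝒟 = twOrd`, `p ∥ N₀`) — helper43:
**MINLEV-B**, the base level of case (b), wired.

For `W` semistable, BAD at `p ∈ {3, 5}`, `ρ̄_{W,p}` irreducible and modular of a level `M₀`
(`p² ∤ M₀`, cube-free away from `p`):  `ρ̄_{W,p}` is modular of the level
`N₀ = ∏_{q ∈ Smin} q`  (`Smin = {p} ∪ {q ∣ Δ : ρ̄ ramified at q}`, so `p ∥ N₀`), from

* M1 = `s59lsq_StmtWall`        (LOWER-SQ, `S59/LowSq/Plan.lean`),
* `s59stm_StmtLowQOrd`         (LOWER-Q at squarefree levels `M` with `p ∣ M`: the frozen S38 shape;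
                                 Mazur's principle / the K-machine at levels `p ∥ M`),
* RAISE ✓ = `LowQ.s59lq_StmtRaise`   (a level prime to `p` is first raised by `p`: NO LOWER-P, and
                                 no "flat ⇒ peu ramifié" is needed).

* `s59stm_lower`        : the induction on the level (pure arithmetic, abstract in `Mod`);
* `s59stmN0`, `s59stm_N0_dvd_iff`, `s59stm_N0_squarefree` : the hypotheses `hN0`,
  `hN0sq` of `s59topo_StmtOwedOrd` (`S59/TopOrd.lean`);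
* **`s59stm_minlev`**   : MINLEV-B.
-/
import Fermat.Agent.S59.TopMinLevW

set_option autoImplicit false
set_option linter.style.haveILetI false
set_option linter.unusedSectionVars false
set_option linter.unusedVariables false
set_option linter.style.longLine false

noncomputable section

namespace Fermat.Agent.S59

open IsLocalRing Fermat.Agent.TW Fermat.Agent.EC

/-- **MINLEV, the induction on the level, ORDINARY case**: `p` divides every level and is never
removed; the target is `∏_{q ∈ R} q` with `p ∈ R`. -/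
theorem s59stm_lower (Mod : ℕ → Prop) (p : ℕ) (hp : p.Prime) (R : Finset ℕ)
    (hR : ∀ q ∈ R, q.Prime) (hpR : p ∈ R)
    (hsq : ∀ q M' : ℕ, q.Prime → q ≠ p → 0 < M' → ¬ q ∣ M' → Mod (q ^ 2 * M') → Mod (q * M'))
    (hlowq : ∀ M q : ℕ, Squarefree M → p ∣ M → q.Prime → q ≠ p → q ∣ M → q ∉ R → Mod M →
      Mod (M / q))
    (hraise : ∀ M C : ℕ, C ≠ 0 → M ∣ C → Mod M → Mod C) :
    ∀ M₀ : ℕ, 0 < M₀ → p ∣ M₀ → ¬ p ^ 2 ∣ M₀ →
      (∀ q : ℕ, q.Prime → q ≠ p → ¬ q ^ 3 ∣ M₀) → Mod M₀ → Mod (∏ q ∈ R, q) := by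
  intro M₀
  induction M₀ using Nat.strong_induction_on with
  | _ M ih =>
    intro hM hpM hp2 h3 hmod
    by_cases hA : ∃ q : ℕ, q.Prime ∧ q ≠ p ∧ q ^ 2 ∣ M
    · -- remove a square
      obtain ⟨q, hq, hqp, M', rfl⟩ := hA
      have hM' : 0 < M' := Nat.pos_of_ne_zero (by rintro rfl; simp at hM)
      have hqM' : ¬ q ∣ M' := by
        rintro ⟨k, rfl⟩
        exact h3 q hq hqp ⟨k, by ring⟩
      have hdvd : q * M' ∣ q ^ 2 * M' := ⟨q, by ring⟩
      have hlt : q * M' < q ^ 2 * M' := by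
        have h2 : q * M' * 1 < q * M' * q :=
          Nat.mul_lt_mul_of_pos_left hq.one_lt (Nat.mul_pos hq.pos hM')
        calc q * M' = q * M' * 1 := (mul_one _).symm
          _ < q * M' * q := h2
          _ = q ^ 2 * M' := by ring
      have hpM' : p ∣ M' := by
        rcases (Nat.Prime.dvd_mul hp).1 hpM with h | h
        · exact absurd ((Nat.prime_dvd_prime_iff_eq hp hq).1 (hp.dvd_of_dvd_pow h)).symm hqp
        · exact h
      exact ih (q * M') hlt (Nat.mul_pos hq.pos hM') (Dvd.dvd.mul_left hpM' q)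
        (fun h => hp2 (h.trans hdvd))
        (fun q' hq' hq'p h => h3 q' hq' hq'p (h.trans hdvd)) (hsq q M' hq hqp hM' hqM' hmod)
    · -- `M` is squarefree
      have hsqf : Squarefree M := by
        rw [Nat.squarefree_iff_prime_squarefree]
        intro x hx hxx
        by_cases hxp : x = p
        · subst hxp
          exact hp2 (by rwa [pow_two])
        · exact hA ⟨x, hx, hxp, by rwa [pow_two]⟩
      by_cases hC : ∃ q : ℕ, q.Prime ∧ q ∣ M ∧ q ∉ R
      · obtain ⟨q, hq, hqM, hqR⟩ := hC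
        have hqp : q ≠ p := by
          rintro rfl
          exact hqR hpR
        have hdvd : M / q ∣ M := Nat.div_dvd_of_dvd hqM
        have hpos : 0 < M / q := Nat.div_pos (Nat.le_of_dvd hM hqM) hq.pos
        have hlt : M / q < M := Nat.div_lt_self hM hq.one_lt
        have hpMq : p ∣ M / q := by
          have e : M = q * (M / q) := (Nat.mul_div_cancel' hqM).symm
          rw [e] at hpM
          rcases (Nat.Prime.dvd_mul hp).1 hpM with h | h
          · exact absurd ((Nat.prime_dvd_prime_iff_eq hp hq).1 h).symm hqp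
          · exact h
        exact ih (M / q) hlt hpos hpMq (fun h => hp2 (h.trans hdvd))
          (fun q' hq' hq'p h => h3 q' hq' hq'p (h.trans hdvd))
          (hlowq M q hsqf hpM hq hqp hqM hqR hmod)
      · -- all prime factors are in `R`
        have hall : ∀ q : ℕ, q.Prime → q ∣ M → q ∈ R := by
          intro q hq hqM
          by_contra hqR
          exact hC ⟨q, hq, hqM, hqR⟩
        have hne : (∏ q ∈ R, q) ≠ 0 :=
          Finset.prod_ne_zero_iff.2 (fun q hq => (hR q hq).ne_zero)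
        exact hraise M _ hne (s59topm_dvd_prod hsqf R hall) hmod

/-- the same from ANY level `M₀` (`p² ∤ M₀`, cube-free away from `p`): a level prime to `p` is
first raised by `p`. -/
theorem s59stm_lower' (Mod : ℕ → Prop) (p : ℕ) (hp : p.Prime) (R : Finset ℕ)
    (hR : ∀ q ∈ R, q.Prime) (hpR : p ∈ R)
    (hsq : ∀ q M' : ℕ, q.Prime → q ≠ p → 0 < M' → ¬ q ∣ M' → Mod (q ^ 2 * M') → Mod (q * M'))
    (hlowq : ∀ M q : ℕ, Squarefree M → p ∣ M → q.Prime → q ≠ p → q ∣ M → q ∉ R → Mod M →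
      Mod (M / q))
    (hraise : ∀ M C : ℕ, C ≠ 0 → M ∣ C → Mod M → Mod C)
    (M₀ : ℕ) (hM₀ : 0 < M₀) (hp2 : ¬ p ^ 2 ∣ M₀)
    (h3 : ∀ q : ℕ, q.Prime → q ≠ p → ¬ q ^ 3 ∣ M₀) (hmod : Mod M₀) : Mod (∏ q ∈ R, q) := by
  by_cases hpM : p ∣ M₀
  · exact s59stm_lower Mod p hp R hR hpR hsq hlowq hraise M₀ hM₀ hpM hp2 h3 hmod
  · have hpos : 0 < p * M₀ := Nat.mul_pos hp.pos hM₀
    refine s59stm_lower Mod p hp R hR hpR hsq hlowq hraise (p * M₀) hpos
      (Dvd.intro _ rfl) ?_ ?_ (hraise M₀ _ hpos.ne' (Dvd.intro_left _ rfl) hmod)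
    · intro h
      rw [pow_two] at h
      exact hpM ((Nat.mul_dvd_mul_iff_left hp.pos).1 h)
    · intro q hq hqp h
      have hcop : Nat.Coprime (q ^ 3) p :=
        Nat.Coprime.pow_left 3 ((Nat.coprime_primes hq hp).2 hqp)
      exact h3 q hq hqp (hcop.dvd_of_dvd_mul_left h)

/-- **LOWER-Q at the squarefree levels divisible by `p`** (= the frozen S38 shape, `ρ̄` = the
residual representation of `tateRepInt W`, `W` bad at `p`): the form consumed by MINLEV-B. -/
def s59stm_StmtLowQOrd : Prop :=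
  ∀ (p : ℕ) [Fact p.Prime], (p = 3 ∨ p = 5) → ∀ (W : WeierstrassCurve ℤ) (hΔ : W.Δ ≠ 0),
    W.IsSemistableModel → W.ModRepIsIrreducible p → (p : ℤ) ∣ W.Δ →
    ∀ M q : ℕ, Squarefree M → p ∣ M → q.Prime → q ≠ p → q ∣ M →
      (tateRepInt W hΔ p).residual.IsUnramifiedAt q →
      W.IsResiduallyModularOfLevel p M → W.IsResiduallyModularOfLevel p (M / q)

section N0

variable (W : WeierstrassCurve ℤ) (hΔ : W.Δ ≠ 0) (p : ℕ) [hp : Fact p.Prime]

/-- the base level of case (b): `p ∥ N₀`. -/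
def s59stmN0 : ℕ := ∏ q ∈ s59feSmin W hΔ p, q

theorem s59stm_N0_dvd_iff (ℓ : ℕ) (hℓ : ℓ.Prime) :
    ℓ ∣ s59stmN0 W hΔ p ↔ ℓ ∈ s59feSmin W hΔ p := by
  unfold s59stmN0
  constructor
  · intro h
    obtain ⟨a, ha, hd⟩ := (Prime.dvd_finsetProd_iff hℓ.prime _).1 h
    have := (Nat.prime_dvd_prime_iff_eq hℓ (s59fe_prime_of_mem_Smin W hΔ p ha)).1 hd
    subst this
    exact ha
  · intro h1
    exact Finset.dvd_prod_of_mem (fun q => q) h1

theorem s59stm_N0_squarefree : Squarefree (s59stmN0 W hΔ p) := by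
  classical
  rw [Nat.squarefree_iff_prime_squarefree]
  intro x hx hxx
  have hxN : x ∣ s59stmN0 W hΔ p := Dvd.dvd.trans (Dvd.intro x rfl) hxx
  have hmem : x ∈ s59feSmin W hΔ p := (s59stm_N0_dvd_iff W hΔ p x hx).1 hxN
  unfold s59stmN0 at hxx
  rw [← Finset.mul_prod_erase _ _ hmem] at hxx
  have h1 : x ∣ ∏ q ∈ (s59feSmin W hΔ p).erase x, q :=
    (Nat.mul_dvd_mul_iff_left hx.pos).1 hxx
  obtain ⟨a, ha, hd⟩ := (Prime.dvd_finsetProd_iff hx.prime _).1 h1
  have hap : a.Prime := s59fe_prime_of_mem_Smin W hΔ p (Finset.mem_of_mem_erase ha)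
  have := (Nat.prime_dvd_prime_iff_eq hx hap).1 hd
  subst this
  exact (Finset.notMem_erase x _) ha

theorem s59stm_N0_ne_zero : s59stmN0 W hΔ p ≠ 0 :=
  (s59stm_N0_squarefree W hΔ p).ne_zero

theorem s59stm_p_dvd_N0 : p ∣ s59stmN0 W hΔ p :=
  (s59stm_N0_dvd_iff W hΔ p p hp.out).2 (s59fe_p_mem_Smin W hΔ p)

theorem s59stm_not_sq_dvd_N0 : ¬ p ^ 2 ∣ s59stmN0 W hΔ p := by
  intro h
  rw [pow_two] at h
  exact (Nat.squarefree_iff_prime_squarefree.1 (s59stm_N0_squarefree W hΔ p)) p hp.out h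

end N0

/-- **MINLEV-B**: the base level of case (b). -/
theorem s59stm_minlev (hM1 : s59lsq_StmtWall) (hQ : s59stm_StmtLowQOrd)
    (hraise : LowQ.s59lq_StmtRaise)
    (p : ℕ) [Fact p.Prime] (hp : p = 3 ∨ p = 5) (W : WeierstrassCurve ℤ) (hΔ : W.Δ ≠ 0)
    (hW : W.IsSemistableModel) (hirr : W.ModRepIsIrreducible p) (hbad : (p : ℤ) ∣ W.Δ)
    (M₀ : ℕ) (hM₀ : 0 < M₀) (hres : W.IsResiduallyModularOfLevel p M₀) (hp2 : ¬ p ^ 2 ∣ M₀)
    (h3 : ∀ q : ℕ, q.Prime → q ≠ p → ¬ q ^ 3 ∣ M₀) :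
    W.IsResiduallyModularOfLevel p (s59stmN0 W hΔ p) := by
  classical
  have hpp : p.Prime := Fact.out
  refine s59stm_lower' (fun M => W.IsResiduallyModularOfLevel p M) p hpp
    (s59feSmin W hΔ p) (fun q hq => s59fe_prime_of_mem_Smin W hΔ p hq)
    (s59fe_p_mem_Smin W hΔ p) ?_ ?_ ?_ M₀ hM₀ hp2 h3 hres
  · intro q M' hq hqp hM' hqM' h
    exact hM1 p hp W hΔ hW hirr q M' hq hqp hM' hqM' trivial h
  · intro M q hsq hpM hq hqp hqM hqR h
    refine hQ p hp W hΔ hW hirr hbad M q hsq hpM hq hqp hqM ?_ h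
    by_contra hram
    exact hqR ((s59fe_hmin_res W hΔ p hq hqp).2 hram)
  · intro M C hC hMC h
    exact hraise W p M C hC hMC h

end Fermat.Agent.S59

end
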