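/-
S59, leaf S33-STRICT (helper43) — INTERFACE.  Ledger: NOTES/S59-Strict.md.

GOAL (case (b) of S59: `W` multiplicative at `p`, `ρ̄` très ramifié): a Hecke–Galois datum `H` of
level `N`, `p ∥ N`, `p` odd, has `H.ρ.IsStrictOrdinaryAt p`.

ROUTE (no modular input beyond S33 ✓ and `det = χ` ✓): `ρ` over a local ring `A` in which the
ideals `(pⁿ)` are open, ordinary at `P ∣ p` with line `L = A b₀`; in the basis `b`
  `ρ(g) = (x_g  y_g; 0  z_g)` for `g ∈ D_P`,   `ρ(σ) = (x_σ  β(σ); 0  1)` for `σ ∈ I_P`,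
`x_σ ≡ 1 mod pⁿ` for `σ ∈ I_n` (`det = χ`), and
  (REL)  `β(g σ g⁻¹) z_g ≡ x_g β(σ) mod pⁿ`        (`g ∈ D_P`, `σ ∈ I_n`).
KUMMER (`s59st_StmtKumRel` = the clause (rel) of helper5's KUM-H, `S59/PStep/PlanKum.lean`):
  for `σ` in the peu ramifié subgroup (all levels, `s59psPeu P p`) and `g ∈ D_P` acting on
  `μ_{pⁿ}` through `a` :  `β(g σ g⁻¹) ≡ a β(σ) mod pⁿ`.
Hence `β(σ) (x_g − a z_g) ∈ (pⁿ)`; if `β(σ₀)` is a unit for ONE `σ₀` in the peu ramifié subgroup
(`s59stTres` : `ρ̄` is très ramifié), then `x_g − a z_g ∈ (pⁿ)` : `ρ` is STRICTLY ordinary.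

* `s59st_StmtKumRel`, `s59st_kumRel_of_kumH : s59ps_StmtKumH → s59st_StmtKumRel`;
* `s59stTres ρ p` : the très ramifié witness;
* (in `Core.lean`) `s59st_strict_of_kumRel : s59st_StmtKumRel → DetIsCyclotomic → IsOrdinaryAt →
    s59stTres → IsStrictOrdinaryAt`;
* (in `KumRel.lean`) `s59st_kumRel_of_kum : s59ps_StmtKum → s59st_StmtKumRel` (KUM-H (rel) ⇐ KUM-n).
-/
import Fermat.Agent.S59.PStep.PlanKum

set_option autoImplicit false
set_option linter.unusedSectionVars false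
set_option linter.unusedVariables false
set_option linter.style.longLine false
set_option linter.style.haveILetI false

noncomputable section

namespace Fermat.Agent.S59

open IsLocalRing

/-- `ℚ̄` -/
local notation "Qbar" => AlgebraicClosure ℚ

/-- **KUM-REL** : the clause (rel) of KUM-H.  For `h` with (add), (cont), (eq) at level `n`
(`S59psKumHyp`), `σ` in the peu ramifié subgroup and `g` in the DECOMPOSITION group acting on
`μ_{pⁿ}` through `ζ ↦ ζ^a` :  `h (g σ g⁻¹) = a • h σ`. -/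
def s59st_StmtKumRel : Prop :=
  ∀ (p : ℕ) [Fact p.Prime], p ≠ 2 → ∀ P : ValuationSubring Qbar, P.LiesOverPrime p →
  ∀ (n : ℕ) (B : Type) [AddCommGroup B] (h : S59G → B), S59psKumHyp P p n h →
    ∀ g ∈ P.decompositionSubgroup ℚ, ∀ a : ℕ, (∀ ζ : Qbar, ζ ^ p ^ n = 1 → g ζ = ζ ^ a) →
      ∀ σ ∈ s59psPeu P p, h (g * σ * g⁻¹) = a • h σ

theorem s59st_kumRel_of_kumH (hK : s59ps_StmtKumH) : s59st_StmtKumRel := by
  intro p _ hp2 P hP n B _ h hh g hg a ha σ hσ
  obtain ⟨t, -, ht⟩ := hK p hp2 P hP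
  exact (ht n B h hh).2 g hg a ha σ hσ

variable {A : Type} [CommRing A] [IsLocalRing A]

/-- **TRES** : `ρ` is très ramifié at `p` : at every place over `p` some element of the peu ramifié
subgroup has a matrix entry of `ρ σ − 1` which is a unit (i.e. `ρ̄ σ ≠ 1`). -/
def s59stTres (ρ : GaloisRepAdic A) (p : ℕ) : Prop :=
  ∀ P : ValuationSubring Qbar, P.LiesOverPrime p →
    ∃ σ ∈ s59psPeu P p, ∃ (ℓ : Module.Dual A ρ.V) (v : ρ.V), IsUnit (ℓ (ρ.ρ σ v - v))

end Fermat.Agent.S59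

end
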