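/-
S59, leaf S33-STRICT (helper43), part 2: THE REDUCTION (PROVED).

`s59st_strict_of_kumRel : s59st_StmtKumRel → (p odd) → ρ.DetIsCyclotomic p → ρ.IsOrdinaryAt p →
    s59stTres ρ p → ρ.IsStrictOrdinaryAt p`
for `ρ` over a local ring `A` in which `(pⁿ)` is open for all `n` (`hpn`; true for the Hecke
rings `T`).  Here `h σ :=` the upper right entry of `ρ σ` in an ordinary basis, modulo `pⁿ`.
-/
import Fermat.Agent.S59.Strict.Plan
import Fermat.Agent.S59.SelLocalTools

set_option autoImplicit false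
set_option linter.unusedSectionVars false
set_option linter.unusedVariables false
set_option linter.style.longLine false
set_option linter.style.haveILetI false

noncomputable section

namespace Fermat.Agent.S59

open IsLocalRing Fermat.Agent.PT.B Fermat.Agent.S53
open scoped Pointwise

/-- `ℚ̄` -/
local notation "Qbar" => AlgebraicClosure ℚ

/-! ### Groups -/

/-- the inertia group is contained in the decomposition group -/
theorem s59st_inertia_le_decomp (P : ValuationSubring Qbar) :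
    P.inertiaSubgroupIn ℚ ≤ P.decompositionSubgroup ℚ :=
  fun σ hσ => ((mem_inertiaSubgroupIn_iff P σ).1 hσ).1

/-- the decomposition group normalises the inertia group -/
theorem s59st_conj_mem_inertia (P : ValuationSubring Qbar) {g σ : S59G}
    (hg : g ∈ P.decompositionSubgroup ℚ) (hσ : σ ∈ P.inertiaSubgroupIn ℚ) :
    g * σ * g⁻¹ ∈ P.inertiaSubgroupIn ℚ := by
  have h := conj_mem_inertiaSubgroupIn P g σ hσ
  have hgP : g • P = P := hg
  rwa [hgP] at h

/-- the decomposition group normalises `I_n` -/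
theorem s59st_conj_mem_In (P : ValuationSubring Qbar) (p n : ℕ) {g σ : S59G}
    (hg : g ∈ P.decompositionSubgroup ℚ) (hσ : σ ∈ s59psIn P p n) :
    g * σ * g⁻¹ ∈ s59psIn P p n := by
  refine ⟨s59st_conj_mem_inertia P hg hσ.1, fun μ hμ => ?_⟩
  have h1 : (g⁻¹ μ) ^ p ^ n = 1 := by rw [← map_pow, hμ, map_one]
  have h2 := hσ.2 (g⁻¹ μ) h1
  show g (σ (g⁻¹ μ)) = μ
  rw [h2]
  exact g.apply_symm_apply μ

/-! ### The shape of an ordinary representation in an ordinary basis -/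

section Shape

variable {A : Type} [CommRing A] [IsLocalRing A]

omit [IsLocalRing A] in
/-- membership in the line `A b₀` : the `b₁`-coordinate vanishes -/
theorem s59st_mem_line_iff {V : Type} [AddCommGroup V] [Module A V]
    (b : Module.Basis (Fin 2) A V) (v : V) :
    v ∈ (A ∙ b 0 : Submodule A V) ↔ b.repr v 1 = 0 := by
  constructor
  · intro h
    obtain ⟨c, rfl⟩ := Submodule.mem_span_singleton.1 h
    rw [map_smul, Module.Basis.repr_self]
    simp
  · intro h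
    have h1 : v = ∑ i, b.repr v i • b i := (b.sum_repr v).symm
    rw [Fin.sum_univ_two, h, zero_smul, add_zero] at h1
    rw [h1]
    exact Submodule.smul_mem _ _ (Submodule.mem_span_singleton_self _)

variable (ρ : GaloisRepAdic A) (b : Module.Basis (Fin 2) A ρ.V)

/-- the coordinates of `ρ σ v` -/
theorem s59st_repr_apply (σ : S59G) (v : ρ.V) (i : Fin 2) :
    b.repr (ρ.ρ σ v) i =
      matOfBasis ρ b σ i 0 * b.repr v 0 + matOfBasis ρ b σ i 1 * b.repr v 1 := by
  have h2 := congrFun (LinearMap.toMatrix_mulVec_repr b b (ρ.ρ σ) v) i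
  rw [← h2, Matrix.mulVec, dotProduct, Fin.sum_univ_two, matOfBasis_apply]

/-- the line is stable under `σ` : the entry `(1, 0)` vanishes -/
theorem s59st_entry10 {σ : S59G}
    (h : ∀ v ∈ (A ∙ b 0 : Submodule A ρ.V), ρ.ρ σ v ∈ (A ∙ b 0 : Submodule A ρ.V)) :
    matOfBasis ρ b σ 1 0 = 0 := by
  have h1 := (s59st_mem_line_iff b _).1 (h (b 0) (Submodule.mem_span_singleton_self _))
  rw [s59st_repr_apply, Module.Basis.repr_self] at h1
  simpa using h1

/-- `σ` is trivial on the quotient by the line : the entry `(1, 1)` is `1` -/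
theorem s59st_entry11 {σ : S59G}
    (h : ∀ v : ρ.V, ρ.ρ σ v - v ∈ (A ∙ b 0 : Submodule A ρ.V)) :
    matOfBasis ρ b σ 1 1 = 1 := by
  have h1 := (s59st_mem_line_iff b _).1 (h (b 1))
  rw [map_sub, Finsupp.sub_apply, s59st_repr_apply, Module.Basis.repr_self] at h1
  simp at h1
  exact sub_eq_zero.1 h1

/-- the determinant of an upper triangular matrix with lower right entry `1` -/
theorem s59st_det_eq {σ : S59G} (h10 : matOfBasis ρ b σ 1 0 = 0)
    (h11 : matOfBasis ρ b σ 1 1 = 1) :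
    LinearMap.det (ρ.ρ σ) = matOfBasis ρ b σ 0 0 := by
  rw [← s59sellt_det ρ b σ, Matrix.det_fin_two, h10, h11]
  ring

end Shape

/-! ### The function `h` and its hypotheses -/

section Main

variable {A : Type} [CommRing A] [IsLocalRing A]

/-- the function `h` : the upper right entry of `ρ σ` in the basis `b`, modulo `J` -/
def s59stH (ρ : GaloisRepAdic A) (b : Module.Basis (Fin 2) A ρ.V) (J : Ideal A) : S59G → A ⧸ J :=
  fun σ => Ideal.Quotient.mk J (matOfBasis ρ b σ 0 1)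

variable {p : ℕ} (n : ℕ) (ρ : GaloisRepAdic A) (hdet : ρ.DetIsCyclotomic p)
  (b : Module.Basis (Fin 2) A ρ.V) (P : ValuationSubring Qbar)
  (hD : ∀ σ ∈ P.decompositionSubgroup ℚ, ∀ v ∈ (A ∙ b 0 : Submodule A ρ.V),
    ρ.ρ σ v ∈ (A ∙ b 0 : Submodule A ρ.V))
  (hI : ∀ σ ∈ P.inertiaSubgroupIn ℚ, ∀ v : ρ.V, ρ.ρ σ v - v ∈ (A ∙ b 0 : Submodule A ρ.V))

include hdet hD hI

/-- `x_σ ≡ a mod pⁿ` for `σ` in the inertia group acting on `μ_{pⁿ}` through `a` -/
theorem s59st_x_cong {σ : S59G} (hσ : σ ∈ P.inertiaSubgroupIn ℚ) (a : ℕ)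
    (ha : ∀ ζ : Qbar, ζ ^ p ^ n = 1 → σ ζ = ζ ^ a) :
    matOfBasis ρ b σ 0 0 - (a : A) ∈ Ideal.span {((p ^ n : ℕ) : A)} := by
  have h := hdet.2 n σ a ha
  rwa [s59st_det_eq ρ b (s59st_entry10 ρ b (hD σ (s59st_inertia_le_decomp P hσ)))
    (s59st_entry11 ρ b (hI σ hσ))] at h

/-- `x_σ ≡ 1 mod pⁿ` for `σ ∈ I_n` -/
theorem s59st_x_cong_one {σ : S59G} (hσ : σ ∈ s59psIn P p n) :
    matOfBasis ρ b σ 0 0 - 1 ∈ Ideal.span {((p ^ n : ℕ) : A)} := by
  have h := s59st_x_cong n ρ hdet b P hD hI hσ.1 1 (fun ζ hζ => by rw [pow_one]; exact hσ.2 ζ hζ)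
  simpa using h

/-- **(REL)** `β(g σ g⁻¹) z_g ≡ x_g β(σ) mod pⁿ` for `g ∈ D_P`, `σ ∈ I_n` -/
theorem s59st_rel {g σ : S59G} (hg : g ∈ P.decompositionSubgroup ℚ) (hσ : σ ∈ s59psIn P p n) :
    matOfBasis ρ b (g * σ * g⁻¹) 0 1 * matOfBasis ρ b g 1 1 -
      matOfBasis ρ b g 0 0 * matOfBasis ρ b σ 0 1 ∈ Ideal.span {((p ^ n : ℕ) : A)} := by
  set M := matOfBasis ρ b with hM
  have e : M (g * σ * g⁻¹) * M g = M g * M σ := by
    rw [← map_mul, ← map_mul]
    congr 1
    group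
  have e01 := congrFun (congrFun e 0) 1
  rw [Matrix.mul_apply, Matrix.mul_apply, Fin.sum_univ_two, Fin.sum_univ_two,
    s59st_entry11 ρ b (hI σ hσ.1)] at e01
  have hx' := s59st_x_cong_one n ρ hdet b P hD hI (s59st_conj_mem_In P p n hg hσ)
  have h1 : M (g * σ * g⁻¹) 0 1 * M g 1 1 - M g 0 0 * M σ 0 1 =
      - ((M (g * σ * g⁻¹) 0 0 - 1) * M g 0 1) := by
    linear_combination e01
  rw [h1]
  exact Ideal.neg_mem_iff _ |>.2 (Ideal.mul_mem_right _ _ hx')

/-- the hypotheses (add), (cont), (eq) for `h` = the upper right entry modulo `pⁿ` -/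
theorem s59st_kumHyp
    (hpn : ∃ k : ℕ, maximalIdeal A ^ k ≤ Ideal.span {((p ^ n : ℕ) : A)}) :
    S59psKumHyp P p n (s59stH ρ b (Ideal.span {((p ^ n : ℕ) : A)})) := by
  set J := Ideal.span {((p ^ n : ℕ) : A)} with hJ
  set M := matOfBasis ρ b with hM
  refine ⟨?_, ?_, ?_, ?_⟩
  · -- kill
    intro x
    obtain ⟨x, rfl⟩ := Ideal.Quotient.mk_surjective x
    rw [← map_nsmul, Ideal.Quotient.eq_zero_iff_mem, nsmul_eq_mul]
    exact J.mul_mem_right _ (Ideal.subset_span (Set.mem_singleton _))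
  · -- add
    intro σ hσ τ hτ
    show Ideal.Quotient.mk J (M (σ * τ) 0 1) =
      Ideal.Quotient.mk J (M σ 0 1) + Ideal.Quotient.mk J (M τ 0 1)
    rw [← map_add, Ideal.Quotient.eq, map_mul, Matrix.mul_apply, Fin.sum_univ_two,
      s59st_entry11 ρ b (hI τ hτ.1)]
    have h := J.mul_mem_right (M τ 0 1) (s59st_x_cong_one n ρ hdet b P hD hI hσ)
    have e : M σ 0 0 * M τ 0 1 + M σ 0 1 * 1 - (M σ 0 1 + M τ 0 1) =
        (M σ 0 0 - 1) * M τ 0 1 := by ring
    rw [e]
    exact h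
  · -- cont
    obtain ⟨k, hk⟩ := hpn
    obtain ⟨F, hF, hcont⟩ := matOfBasis_cont ρ b k
    refine ⟨F, hF, fun σ _ hσF => ?_⟩
    have h := hcont σ (fun x hx => hσF ⟨x, hx⟩) 0 1
    rw [Matrix.sub_apply, Matrix.one_apply_ne (by decide), sub_zero] at h
    exact Ideal.Quotient.eq_zero_iff_mem.2 (hk h)
  · -- eq
    intro g hg a ha σ hσ
    show Ideal.Quotient.mk J (M (g * σ * g⁻¹) 0 1) = a • Ideal.Quotient.mk J (M σ 0 1)
    rw [← map_nsmul, Ideal.Quotient.eq, nsmul_eq_mul]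
    have h1 := s59st_rel n ρ hdet b P hD hI (s59st_inertia_le_decomp P hg) hσ
    rw [s59st_entry11 ρ b (hI g hg), mul_one] at h1
    have h2 := J.mul_mem_right (M σ 0 1) (s59st_x_cong n ρ hdet b P hD hI hg a ha)
    have e : M (g * σ * g⁻¹) 0 1 - a * M σ 0 1 =
        (M (g * σ * g⁻¹) 0 1 - M g 0 0 * M σ 0 1) + (M g 0 0 - a) * M σ 0 1 := by ring
    rw [e]
    exact J.add_mem h1 h2

end Main

/-! ### The reduction -/

section Strict

variable {A : Type} [CommRing A] [IsLocalRing A]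

/-- **S33-STRICT, abstract form.**  `ρ` with cyclotomic determinant, ordinary and très ramifié at
the odd prime `p`, over a local ring in which the ideals `(pⁿ)` are open, is STRICTLY ordinary at
`p` — given Kummer theory at level `pⁿ` in the form (rel). -/
theorem s59st_strict_of_kumRel (hK : s59st_StmtKumRel) {p : ℕ} (hp : p.Prime) (hp2 : p ≠ 2)
    (hpn : ∀ n : ℕ, ∃ k : ℕ, maximalIdeal A ^ k ≤ Ideal.span {((p ^ n : ℕ) : A)})
    (ρ : GaloisRepAdic A) (hdet : ρ.DetIsCyclotomic p) (hord : ρ.IsOrdinaryAt p)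
    (htres : s59stTres ρ p) : ρ.IsStrictOrdinaryAt p := by
  haveI : Fact p.Prime := ⟨hp⟩
  refine ⟨hdet.1, fun P hP => ?_⟩
  obtain ⟨L, ⟨b, hL⟩, hD, hI⟩ := hord P hP
  subst hL
  refine ⟨_, ⟨b, rfl⟩, hD, hI, fun g hg => ?_⟩
  set M := matOfBasis ρ b with hM
  have hg10 : M g 1 0 = 0 := s59st_entry10 ρ b (hD g hg)
  refine ⟨M g 0 0, M g 1 1, ?_, ?_, ?_⟩
  · intro w hw
    obtain ⟨c, rfl⟩ := Submodule.mem_span_singleton.1 hw
    rw [map_smul, smul_comm]
    congr 1
    apply b.repr.injective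
    ext i
    rw [s59st_repr_apply, map_smul, Module.Basis.repr_self]
    fin_cases i
    · simp [← hM]
    · simp [hg10, ← hM]
  · intro v
    rw [s59st_mem_line_iff b, map_sub, Finsupp.sub_apply, s59st_repr_apply, ← hM, hg10, map_smul,
      Finsupp.smul_apply, smul_eq_mul]
    ring
  · intro n a ha
    set J := Ideal.span {((p ^ n : ℕ) : A)} with hJ
    obtain ⟨σ₀, hσ₀, ℓ, v, hu⟩ := htres P hP
    have hσ₀n : σ₀ ∈ s59psIn P p n := s59psPeu_le_In P p n hσ₀
    -- `β₀` is a unit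
    have hβ₀ : IsUnit (M σ₀ 0 1) := by
      have h10 : M σ₀ 1 0 = 0 := s59st_entry10 ρ b (hD σ₀ (s59st_inertia_le_decomp P hσ₀.1))
      have h11 : M σ₀ 1 1 = 1 := s59st_entry11 ρ b (hI σ₀ hσ₀.1)
      have hx : M σ₀ 0 0 - 1 ∈ maximalIdeal A := by
        have h := s59st_x_cong_one 1 ρ hdet b P hD hI (s59psPeu_le_In P p 1 hσ₀)
        have hle : Ideal.span {((p ^ 1 : ℕ) : A)} ≤ maximalIdeal A := by
          rw [Ideal.span_singleton_le_iff_mem, pow_one]
          exact hdet.1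
        exact hle h
      have hv : ρ.ρ σ₀ v - v =
          ((M σ₀ 0 0 - 1) * b.repr v 0 + M σ₀ 0 1 * b.repr v 1) • b 0 := by
        apply b.repr.injective
        ext i
        rw [map_sub, Finsupp.sub_apply, s59st_repr_apply, map_smul, Module.Basis.repr_self,
          Finsupp.smul_apply, smul_eq_mul]
        fin_cases i
        · simp [← hM]
          ring
        · simp [← hM, h10, h11]
      rw [hv, map_smul, smul_eq_mul] at hu
      have hc := isUnit_of_mul_isUnit_left hu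
      rcases IsLocalRing.isUnit_or_isUnit_of_isUnit_add hc with h | h
      · exact absurd h ((IsLocalRing.mem_maximalIdeal _).1
          (Ideal.mul_mem_right _ _ hx))
      · exact isUnit_of_mul_isUnit_left h
    -- Kummer
    have hyp := s59st_kumHyp n ρ hdet b P hD hI (hpn n)
    have hrel := hK p hp2 P hP n _ _ hyp g hg a ha σ₀ hσ₀
    have hk : M (g * σ₀ * g⁻¹) 0 1 - a * M σ₀ 0 1 ∈ J := by
      have h : Ideal.Quotient.mk J (M (g * σ₀ * g⁻¹) 0 1) =
          a • Ideal.Quotient.mk J (M σ₀ 0 1) := hrel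
      rwa [← map_nsmul, Ideal.Quotient.eq, nsmul_eq_mul] at h
    have hr := s59st_rel n ρ hdet b P hD hI hg hσ₀n
    have e : M σ₀ 0 1 * (M g 0 0 - a * M g 1 1) =
        (M (g * σ₀ * g⁻¹) 0 1 - a * M σ₀ 0 1) * M g 1 1 -
          (M (g * σ₀ * g⁻¹) 0 1 * M g 1 1 - M g 0 0 * M σ₀ 0 1) := by ring
    have h2 : M σ₀ 0 1 * (M g 0 0 - a * M g 1 1) ∈ J := by
      rw [e]
      exact J.sub_mem (J.mul_mem_right _ hk) hr
    exact (Ideal.unit_mul_mem_iff_mem J hβ₀).1 h2

end Strict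

end Fermat.Agent.S59

end
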