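/-
S59, leaf S33-STRICT (helper43), part 4: **KUM-H (rel) ⇐ KUM-n**.

`s59st_kumRel_of_kum : s59ps_StmtKum → s59st_StmtKumRel`.

`P ∣ p`, `I`, `D` the inertia and decomposition groups, `K = ℚ̄^I`, `H = s59psPeu P p`.
For `g ∈ D` acting on `μ_{pⁿ}` through `a` and `σ ∈ H` put `τ := g σ g⁻¹ σ^{-a} ∈ H ⊆ I_n`.
* `s59stk_tau_fix` : `τ` fixes every `y` with `y^{pⁿ} ∈ K` :
  `y^{pⁿ} = u p^{-e}`, `u` a unit of `P` fixed by `I` (VAL, `s59stv_val`); `π^{pⁿ} = p`,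
  `w := y π^e`, `w^{pⁿ} = u` : `τ w = w` (`τ ∈ H`); `σ π = ξ π`, `g σ g⁻¹ π = ξ^a π = σ^a π` :
  `τ π = π`.
* KUM-n : `h τ = 0`;  `h` is a homomorphism on `I_n` : `h (g σ g⁻¹) = a • h σ`.
-/
import Fermat.Agent.S59.Strict.Core
import Fermat.Agent.S59.Strict.Val

set_option autoImplicit false
set_option linter.unusedSectionVars false
set_option linter.unusedVariables false
set_option linter.style.longLine false
set_option linter.style.haveILetI false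

noncomputable section

namespace Fermat.Agent.S59

open Fermat.Agent.PT.B
open scoped Pointwise

/-- `ℚ̄` -/
local notation "Qbar" => AlgebraicClosure ℚ

/-! ### `h` is a homomorphism on `I_n` -/

section Hom

variable {P : ValuationSubring Qbar} {p n : ℕ} {B : Type} [AddCommGroup B] {h : S59G → B}

theorem s59stk_h_one (hh : S59psKumHyp P p n h) : h 1 = 0 := by
  have h1 := hh.add 1 (one_mem _) 1 (one_mem _)
  rw [one_mul] at h1
  exact left_eq_add.1 h1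

theorem s59stk_h_pow (hh : S59psKumHyp P p n h) {σ : S59G} (hσ : σ ∈ s59psIn P p n) (a : ℕ) :
    h (σ ^ a) = a • h σ := by
  induction a with
  | zero => rw [pow_zero, zero_smul]; exact s59stk_h_one hh
  | succ a ih => rw [pow_succ, hh.add _ (pow_mem hσ a) _ hσ, ih, succ_nsmul]

theorem s59stk_h_inv (hh : S59psKumHyp P p n h) {σ : S59G} (hσ : σ ∈ s59psIn P p n) :
    h σ⁻¹ = - h σ := by
  have h1 := hh.add σ hσ σ⁻¹ (inv_mem hσ)
  rw [mul_inv_cancel, s59stk_h_one hh] at h1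
  exact eq_neg_of_add_eq_zero_right h1.symm

end Hom

/-! ### The decomposition group normalises the peu ramifié subgroup -/

section Conj

variable {P : ValuationSubring Qbar} {p : ℕ}

theorem s59stk_inv_mem_iff {g : S59G} (hg : g ∈ P.decompositionSubgroup ℚ) (x : Qbar) :
    g⁻¹ x ∈ P ↔ x ∈ P := by
  have hgP : g • P = P := hg
  rw [← mem_smul_valuationSubring_iff P g x, hgP]

theorem s59stk_conj_mem_peu {g σ : S59G} (hg : g ∈ P.decompositionSubgroup ℚ)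
    (hσ : σ ∈ s59psPeu P p) : g * σ * g⁻¹ ∈ s59psPeu P p := by
  obtain ⟨hσI, hσ'⟩ := hσ
  refine ⟨s59st_conj_mem_inertia P hg hσI, fun n y h1 h2 h3 => ?_⟩
  have hcancel : ∀ u : Qbar, g (g⁻¹ u) = u := fun u => g.apply_symm_apply u
  have hcancel' : ∀ u : Qbar, g⁻¹ (g u) = u := fun u => g.symm_apply_apply u
  have hfix : σ (g⁻¹ y) = g⁻¹ y := by
    refine hσ' n (g⁻¹ y) ?_ ?_ ?_
    · rw [← map_pow]
      exact (s59stk_inv_mem_iff hg _).2 h1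
    · rw [← map_pow, ← map_inv₀]
      exact (s59stk_inv_mem_iff hg _).2 h2
    · intro τ hτ
      have hτ' := s59st_conj_mem_inertia P hg hτ
      have h := h3 _ hτ'
      have e : (g * τ * g⁻¹) (y ^ p ^ n) = g (τ (g⁻¹ (y ^ p ^ n))) := rfl
      rw [e] at h
      have h' : g⁻¹ (g (τ (g⁻¹ (y ^ p ^ n)))) = g⁻¹ (y ^ p ^ n) := by rw [h]
      rw [hcancel'] at h'
      rw [← map_pow]
      exact h'
  show g (σ (g⁻¹ y)) = y
  rw [hfix]
  exact hcancel y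

end Conj

/-! ### The element `τ = g σ g⁻¹ σ^{-a}` -/

section Tau

variable {P : ValuationSubring Qbar} {p : ℕ}

/-- `s π / π` is a `pⁿ`-th root of unity -/
theorem s59stk_symbol_pow {n : ℕ} {π : Qbar} (hp : p.Prime) (hπ : π ^ p ^ n = (p : Qbar))
    (s : S59G) : (s π / π) ^ p ^ n = 1 := by
  have hp0 : (p : Qbar) ≠ 0 := Nat.cast_ne_zero.2 hp.ne_zero
  rw [div_pow, ← map_pow, hπ, map_natCast, div_self hp0]

theorem s59stk_pi_ne_zero {n : ℕ} {π : Qbar} (hp : p.Prime) (hπ : π ^ p ^ n = (p : Qbar)) :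
    π ≠ 0 := by
  rintro rfl
  have hp0 : (p : Qbar) ≠ 0 := Nat.cast_ne_zero.2 hp.ne_zero
  rw [zero_pow (pow_ne_zero n hp.ne_zero)] at hπ
  exact hp0 hπ.symm

/-- two elements of `I_n` which agree on `π` (`π^{pⁿ} = p`) : `s₁ s₂⁻¹ π = π` -/
theorem s59stk_fix_pi {n : ℕ} {π : Qbar} (hp : p.Prime) (hπ : π ^ p ^ n = (p : Qbar))
    {s₁ s₂ : S59G} (h₁ : s₁ ∈ s59psIn P p n) (h₂ : s₂ ∈ s59psIn P p n) (h : s₁ π = s₂ π) :
    (s₁ * s₂⁻¹) π = π := by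
  have hπ0 := s59stk_pi_ne_zero hp hπ
  have hcpow := s59stk_symbol_pow hp hπ s₂⁻¹
  have hcπ : s₂⁻¹ π = s₂⁻¹ π / π * π := by field_simp
  calc (s₁ * s₂⁻¹) π = s₁ (s₂⁻¹ π) := rfl
    _ = s₁ (s₂⁻¹ π / π * π) := by rw [← hcπ]
    _ = s₂⁻¹ π / π * s₂ π := by rw [map_mul, h₁.2 _ hcpow, h]
    _ = s₂ (s₂⁻¹ π / π * π) := by rw [map_mul, h₂.2 _ hcpow]
    _ = s₂ (s₂⁻¹ π) := by rw [← hcπ]
    _ = π := s₂.apply_symm_apply π

/-- `g σ g⁻¹ π = σ^a π` for `σ ∈ I_n` and `g` acting on `μ_{pⁿ}` through `a` (`g p = p`) -/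
theorem s59stk_conj_pi {n : ℕ} {π : Qbar} (hp : p.Prime) (hπ : π ^ p ^ n = (p : Qbar))
    {g σ : S59G} (hσ : σ ∈ s59psIn P p n) (a : ℕ)
    (ha : ∀ ζ : Qbar, ζ ^ p ^ n = 1 → g ζ = ζ ^ a) :
    (g * σ * g⁻¹) π = (σ ^ a) π := by
  have hπ0 := s59stk_pi_ne_zero hp hπ
  have hξ := s59stk_symbol_pow hp hπ σ
  have hη := s59stk_symbol_pow hp hπ g⁻¹
  have hσπ : σ π = σ π / π * π := by field_simp
  have hgπ : g⁻¹ π = g⁻¹ π / π * π := by field_simp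
  have hpow : ∀ k : ℕ, (σ ^ k) π = (σ π / π) ^ k * π := by
    intro k
    induction k with
    | zero => simp
    | succ k ih =>
      have hk : (σ ^ k) (σ π / π) = σ π / π := (pow_mem hσ k).2 _ hξ
      calc (σ ^ (k + 1)) π = (σ ^ k) (σ π) := by rw [pow_succ]; rfl
        _ = (σ ^ k) (σ π / π * π) := by rw [← hσπ]
        _ = σ π / π * ((σ π / π) ^ k * π) := by rw [map_mul, hk, ih]
        _ = (σ π / π) ^ (k + 1) * π := by ring
  calc (g * σ * g⁻¹) π = g (σ (g⁻¹ π)) := rfl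
    _ = g (σ (g⁻¹ π / π * π)) := by rw [← hgπ]
    _ = g (g⁻¹ π / π * (σ π / π * π)) := by rw [map_mul, hσ.2 _ hη, ← hσπ]
    _ = g (σ π / π * (g⁻¹ π / π * π)) := by ring_nf
    _ = g (σ π / π) * g (g⁻¹ π) := by rw [map_mul, ← hgπ]
    _ = (σ π / π) ^ a * π := by
        have e : g (g⁻¹ π) = π := g.apply_symm_apply π
        rw [ha _ hξ, e]
    _ = (σ ^ a) π := (hpow a).symm

/-- **`τ = g σ g⁻¹ σ^{-a}` fixes every `y` with `y^{pⁿ} ∈ K`** (`σ` in the peu ramifié subgroup,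
`g` in the decomposition group acting on `μ_{pⁿ}` through `a`). -/
theorem s59stk_tau_fix (hp : p.Prime) (hP : P.LiesOverPrime p) (n : ℕ) {g σ : S59G}
    (hg : g ∈ P.decompositionSubgroup ℚ) (hσ : σ ∈ s59psPeu P p) (a : ℕ)
    (ha : ∀ ζ : Qbar, ζ ^ p ^ n = 1 → g ζ = ζ ^ a)
    (y : Qbar) (hy : ∀ τ ∈ P.inertiaSubgroupIn ℚ, τ (y ^ p ^ n) = y ^ p ^ n) :
    (g * σ * g⁻¹ * (σ ^ a)⁻¹) y = y := by
  by_cases hy0 : y = 0
  · rw [hy0, map_zero]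
  have hp0 : (p : Qbar) ≠ 0 := Nat.cast_ne_zero.2 hp.ne_zero
  have hδ0 : y ^ p ^ n ≠ 0 := pow_ne_zero _ hy0
  obtain ⟨e, hu1, hu2⟩ := s59stv_val hp hP hδ0 hy
  obtain ⟨π, hπ⟩ := IsAlgClosed.exists_pow_nat_eq (p : Qbar) (pow_pos hp.pos n)
  have hπ0 := s59stk_pi_ne_zero hp hπ
  have hσn := s59psPeu_le_In P p n hσ
  -- `τ ∈ H`
  have hτH : g * σ * g⁻¹ * (σ ^ a)⁻¹ ∈ s59psPeu P p :=
    mul_mem (s59stk_conj_mem_peu hg hσ) (inv_mem (pow_mem hσ a))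
  -- `w = y π^e`, `w^{pⁿ} = y^{pⁿ} p^e`
  have hw : (y * π ^ e) ^ p ^ n = y ^ p ^ n * (p : Qbar) ^ e := by
    rw [mul_pow, ← hπ, ← zpow_natCast (π ^ e), ← zpow_mul, mul_comm e, zpow_mul, zpow_natCast]
  have hτw : (g * σ * g⁻¹ * (σ ^ a)⁻¹) (y * π ^ e) = y * π ^ e := by
    refine hτH.2 n _ ?_ ?_ ?_
    · rw [hw]; exact hu1
    · rw [hw]; exact hu2
    · intro τ hτ
      rw [hw, map_mul, hy τ hτ, map_zpow₀, map_natCast]
  have hτπ : (g * σ * g⁻¹ * (σ ^ a)⁻¹) π = π :=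
    s59stk_fix_pi hp hπ (s59st_conj_mem_In P p n hg hσn) (pow_mem hσn a)
      (s59stk_conj_pi hp hπ hσn a ha)
  have hy' : y = y * π ^ e * (π ^ e)⁻¹ := by
    field_simp
  calc (g * σ * g⁻¹ * (σ ^ a)⁻¹) y
      = (g * σ * g⁻¹ * (σ ^ a)⁻¹) (y * π ^ e * (π ^ e)⁻¹) := by rw [← hy']
    _ = y * π ^ e * (π ^ e)⁻¹ := by rw [map_mul, hτw, map_inv₀, map_zpow₀, hτπ]
    _ = y := hy'.symm

end Tau

/-! ### KUM-H (rel) from KUM-n -/

/-- **KUM-H (rel) ⇐ KUM-n.** -/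
theorem s59st_kumRel_of_kum (hK : s59ps_StmtKum) : s59st_StmtKumRel := by
  intro p _ hp2 P hP n B _ h hh g hg a ha σ hσ
  have hp : p.Prime := Fact.out
  have hσn := s59psPeu_le_In P p n hσ
  have hc : g * σ * g⁻¹ ∈ s59psIn P p n := s59st_conj_mem_In P p n hg hσn
  have hpow : σ ^ a ∈ s59psIn P p n := pow_mem hσn a
  have hτ : g * σ * g⁻¹ * (σ ^ a)⁻¹ ∈ s59psIn P p n := mul_mem hc (inv_mem hpow)
  have h0 := hK p hp2 P hP n B h hh _ hτ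
    (fun y hy => s59stk_tau_fix hp hP n hg hσ a ha y hy)
  have h1 : h (g * σ * g⁻¹ * (σ ^ a)⁻¹) = h (g * σ * g⁻¹) + h ((σ ^ a)⁻¹) :=
    hh.add _ hc _ (inv_mem hpow)
  rw [s59stk_h_inv hh hpow, s59stk_h_pow hh hσn, h0] at h1
  exact (sub_eq_zero.1 (by rw [sub_eq_add_neg]; exact h1.symm))

end Fermat.Agent.S59

end
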