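/-
S59, leaf S33-STRICT (helper43), part 5: THE TRÈS RAMIFIÉ WITNESS, residual form.

* `s59stTresBar ρ̄ p` : at every place `P` over `p` some element of the peu ramifié subgroup
  (all levels, `s59psPeu P p`) acts non-trivially through `ρ̄`;
* `s59st_tres_of_residual : s59stTresBar ρ.residual p → s59stTres ρ p`;
* `s59st_tresBar_of_exists` : ONE place suffices (the places over `p` are conjugate);
* `s59st_tresBar_of_not_peuTriv : ¬ s59psPeuTriv (ofResidualGaloisRep ρ̄) p → s59stTresBar ρ̄ p`
  (so the CASE SPLIT (b) / (c) of S59 at a multiplicative `p` can be made on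
  `s59psPeuTriv ρ̄ p`, M5's peu ramifié condition: no E-side leaf is needed);
* `s59st_tresBar_of_isEquiv`, `s59st_tresBar_baseChange` : transport.
-/
import Fermat.Agent.S59.Strict.Core
import Fermat.Agent.S59.PStep.LocRing

set_option autoImplicit false
set_option linter.unusedSectionVars false
set_option linter.unusedVariables false
set_option linter.style.longLine false
set_option linter.style.haveILetI false

noncomputable section

namespace Fermat.Agent.S59

open IsLocalRing Fermat.Agent.PT.B Fermat.Agent.S53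
open scoped Pointwise TensorProduct

/-- `ℚ̄` -/
local notation "Qbar" => AlgebraicClosure ℚ

/-- **TRES, residual form.** -/
def s59stTresBar {k : Type} [Field k] (ρbar : ResidualGaloisRep k) (p : ℕ) : Prop :=
  ∀ P : ValuationSubring Qbar, P.LiesOverPrime p → ∃ σ ∈ s59psPeu P p, ρbar.ρ σ ≠ 1

section Bar

variable {k : Type} [Field k]

/-- ONE place suffices. -/
theorem s59st_tresBar_of_exists {p : ℕ} (hp : p.Prime) (ρbar : ResidualGaloisRep k)
    (h : ∃ P : ValuationSubring Qbar, P.LiesOverPrime p ∧ ∃ σ ∈ s59psPeu P p, ρbar.ρ σ ≠ 1) :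
    s59stTresBar ρbar p := by
  obtain ⟨P₀, hP₀, σ, hσ, hne⟩ := h
  intro P hP
  obtain ⟨τ, hτ⟩ := Fermat.Agent.TW.S.sconjp_exists_smul_eq p hp P₀ P hP₀ hP
  refine ⟨τ * σ * τ⁻¹, ?_, ?_⟩
  · have := s59pslr_conj_mem_peu P₀ p τ σ hσ
    rwa [hτ] at this
  · intro h1
    apply hne
    have e : ρbar.ρ σ = ρbar.ρ τ⁻¹ * ρbar.ρ (τ * σ * τ⁻¹) * ρbar.ρ τ := by
      rw [← map_mul, ← map_mul]
      congr 1
      group
    rw [e, h1, mul_one, ← map_mul, inv_mul_cancel, map_one]

/-- not peu ramifié (M5's condition fails) ⇒ très ramifié -/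
theorem s59st_tresBar_of_not_peuTriv {p : ℕ} (hp : p.Prime) (ρbar : ResidualGaloisRep k)
    (h : ¬ s59psPeuTriv (GaloisRepAdic.ofResidualGaloisRep ρbar) p) : s59stTresBar ρbar p := by
  apply s59st_tresBar_of_exists hp
  by_contra hcon
  apply h
  rintro σ ⟨P, hP, hσ⟩
  by_contra hne
  exact hcon ⟨P, hP, σ, hσ, hne⟩

/-- transport along an equivalence -/
theorem s59st_tresBar_of_isEquiv {p : ℕ} {ρ₁ ρ₂ : ResidualGaloisRep k} (e : ρ₁.IsEquiv ρ₂)
    (h : s59stTresBar ρ₁ p) : s59stTresBar ρ₂ p := by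
  obtain ⟨e⟩ := e
  intro P hP
  obtain ⟨σ, hσ, hne⟩ := h P hP
  refine ⟨σ, hσ, fun h2 => hne ?_⟩
  refine LinearMap.ext fun v => ?_
  apply e.toLinearEquiv.injective
  rw [e.map_apply, h2]
  rfl

/-- transport along a base change of the coefficient field -/
theorem s59st_tresBar_baseChange {p : ℕ} {k' : Type} [Field k'] (φ : k →+* k')
    (ρbar : ResidualGaloisRep k) (h : s59stTresBar ρbar p) :
    s59stTresBar (ρbar.baseChangeAlong φ) p := by
  letI : Algebra k k' := φ.toAlgebra
  intro P hP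
  obtain ⟨σ, hσ, hne⟩ := h P hP
  refine ⟨σ, hσ, fun h2 => hne ?_⟩
  have h3 : (ρbar.ρ σ).baseChange k' = 1 := h2
  refine LinearMap.ext fun v => ?_
  have h4 := congrArg (fun f : Module.End k' (k' ⊗[k] ρbar.V) => f ((1 : k') ⊗ₜ[k] v)) h3
  simp only [LinearMap.baseChange_tmul, Module.End.one_apply] at h4
  exact Module.Flat.tensorProduct_mk_injective (R := k) (S := k') ρbar.V h4

end Bar

/-! ### From the residual representation to `ρ` -/

section Adic

variable {A : Type} [CommRing A] [IsLocalRing A]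

/-- **TRES for `ρ` from TRES for `ρ̄`.** -/
theorem s59st_tres_of_residual {p : ℕ} (ρ : GaloisRepAdic A)
    (h : s59stTresBar ρ.residual p) : s59stTres ρ p := by
  intro P hP
  obtain ⟨σ, hσ, hne⟩ := h P hP
  refine ⟨σ, hσ, ?_⟩
  by_contra hcon
  push Not at hcon
  apply hne
  set b := someBasis ρ with hb
  -- every coordinate of `ρ σ v − v` lies in the maximal ideal
  have hmem : ∀ (v : ρ.V) (i : Fin 2), b.repr (ρ.ρ σ v - v) i ∈ maximalIdeal A := by
    intro v i
    have := hcon (b.coord i) v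
    exact (IsLocalRing.mem_maximalIdeal _).2 this
  have hkill : ∀ (v : ρ.V) (c : ResidueField A), c ⊗ₜ[A] (ρ.ρ σ v - v) = 0 := by
    intro v c
    have h1 : ρ.ρ σ v - v = ∑ i, b.repr (ρ.ρ σ v - v) i • b i := (b.sum_repr _).symm
    rw [h1, TensorProduct.tmul_sum]
    refine Finset.sum_eq_zero fun i _ => ?_
    rw [TensorProduct.tmul_smul, TensorProduct.smul_tmul', Algebra.smul_def,
      IsLocalRing.ResidueField.algebraMap_eq, (IsLocalRing.residue_eq_zero_iff _).mpr (hmem v i),
      zero_mul, TensorProduct.zero_tmul]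
  refine LinearMap.ext fun w => ?_
  show (ρ.ρ σ).baseChange (ResidueField A) w = w
  induction w using TensorProduct.induction_on with
  | zero => rw [map_zero]
  | tmul c v =>
    rw [LinearMap.baseChange_tmul, ← sub_eq_zero, ← TensorProduct.tmul_sub]
    exact hkill v c
  | add x y hx hy => rw [map_add, hx, hy]

end Adic

end Fermat.Agent.S59

end
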