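/-
S59, leaf S33-STRICT (helper43), part 6: THE HECKE–GALOIS DATUM.   **S33-STRICT, unconditional.**

`s59st_datum` : `H` a Hecke–Galois datum of level `N`, `p ∥ N`, `p` odd (the hypotheses of the
frozen S33), `ρ̄ = H.ρ.residual` ordinary and TRÈS RAMIFIÉ at `p` (`s59stTresBar`)
  ⇒ `H.ρ.IsStrictOrdinaryAt p`.
Inputs: S33 ✓ (the BODY of `Fermat.Agent.S33.result`, `s33_of_wild stmtWildT`: the root file
`Fermat/Agent/S33.lean` is NOT imported — ZB switch), `det = χ` ✓ (`S33.detIsCyclotomic_of_datum`),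
KUM-n ✓ (helper5, `s59psk_kum`), KUM-H (rel) ⇐ KUM-n ✓ (`s59st_kumRel_of_kum`), the reduction
`s59st_strict_of_kumRel` ✓, and `(pⁿ)` is open in `T` (`s59std_pow_le`).
-/
import Fermat.Agent.S59.Strict.Tres
import Fermat.Agent.S59.Strict.KumRel
import Fermat.Agent.S59.PStep.Kum
import Fermat.Agent.S33.OfWild
import Fermat.Agent.S33.WildFinal
import Fermat.Agent.S33.DetCyclo

set_option autoImplicit false
set_option linter.unusedSectionVars false
set_option linter.unusedVariables false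
set_option linter.style.longLine false
set_option linter.style.haveILetI false

noncomputable section

namespace Fermat.Agent.S59

open IsLocalRing

/-- `ℚ̄` -/
local notation "Qbar" => AlgebraicClosure ℚ

/-! ### `(x)` is open in `T` -/

section Open

variable {𝒪 : Type} [CommRing 𝒪] [IsDomain 𝒪] [IsDiscreteValuationRing 𝒪]
  [Finite (ResidueField 𝒪)]

theorem s59std_finite_quot {x : 𝒪} (hx : x ≠ 0) : Finite (𝒪 ⧸ Ideal.span {x}) := by
  obtain ⟨ϖ, hϖ⟩ := IsDiscreteValuationRing.exists_irreducible 𝒪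
  have hne : Ideal.span {x} ≠ ⊥ := by
    rw [Ne, Ideal.span_singleton_eq_bot]
    exact hx
  obtain ⟨j, hj⟩ := IsDiscreteValuationRing.ideal_eq_span_pow_irreducible hne hϖ
  rw [IsLocalRing.finite_quotient_iff]
  exact ⟨j, by rw [hj, hϖ.maximalIdeal_eq, Ideal.span_singleton_pow]⟩

variable {T : Type} [CommRing T] [IsLocalRing T] [IsNoetherianRing T] [Algebra 𝒪 T]
  [Module.Finite 𝒪 T]

/-- a nonzero element of `𝒪` generates an open ideal of `T` -/
theorem s59std_pow_le {x : 𝒪} (hx : x ≠ 0) :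
    ∃ k : ℕ, maximalIdeal T ^ k ≤ Ideal.span {algebraMap 𝒪 T x} := by
  haveI := s59std_finite_quot hx
  haveI : Finite (T ⧸ (⊤ : Submodule 𝒪 T)) := by
    haveI : Subsingleton (T ⧸ (⊤ : Submodule 𝒪 T)) := Submodule.Quotient.subsingleton_iff.2 rfl
    infer_instance
  have hfin : Finite (T ⧸ (Ideal.span {x} • (⊤ : Submodule 𝒪 T))) :=
    Submodule.finite_quotient_smul _ Module.Finite.fg_top
  set J : Ideal T := Ideal.span {algebraMap 𝒪 T x} with hJ
  have hle : Ideal.span {x} • (⊤ : Submodule 𝒪 T) ≤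
      LinearMap.ker ((Ideal.Quotient.mkₐ 𝒪 J).toLinearMap) := by
    rw [Submodule.smul_le]
    intro r hr t _
    obtain ⟨c, rfl⟩ := Ideal.mem_span_singleton'.1 hr
    rw [LinearMap.mem_ker]
    show Ideal.Quotient.mk J ((c * x) • t) = 0
    rw [Ideal.Quotient.eq_zero_iff_mem, Algebra.smul_def, map_mul]
    exact J.mul_mem_right _ (J.mul_mem_left _ (Ideal.subset_span (Set.mem_singleton _)))
  haveI : Finite (T ⧸ J) := by
    refine Finite.of_surjective (Submodule.liftQ _ _ hle) ?_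
    intro y
    obtain ⟨t, rfl⟩ := Ideal.Quotient.mk_surjective y
    exact ⟨Submodule.Quotient.mk t, rfl⟩
  exact Fermat.Agent.S32.exists_pow_le_of_finite_quotient J

end Open

/-! ### The datum -/

section Datum

variable {p : ℕ} {N : ℕ} [NeZero N] {S : Finset ℕ}
  {𝒪 : Type} [CommRing 𝒪] [IsDomain 𝒪] [IsDiscreteValuationRing 𝒪]
  [IsAdicComplete (IsLocalRing.maximalIdeal 𝒪) 𝒪]
  {θ : CuspForm.heckeAlgebra N 2 (↑S : Set ℕ) →+* IsLocalRing.ResidueField 𝒪}
  {T : Type} [CommRing T] [IsLocalRing T] [IsNoetherianRing T]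
  [IsAdicComplete (IsLocalRing.maximalIdeal T) T] [Algebra 𝒪 T] [IsLocalHom (algebraMap 𝒪 T)]
  [Module.Finite 𝒪 T] [Module.Free 𝒪 T]

/-- **KUM-REL, unconditional.** -/
theorem s59st_kumRel : s59st_StmtKumRel := s59st_kumRel_of_kum s59psk_kum

/-- `(pⁿ)` is open in `T` -/
theorem s59std_pow_le_p [Finite (IsLocalRing.ResidueField 𝒪)] [CharZero 𝒪] (hp : p.Prime)
    (n : ℕ) : ∃ k : ℕ, maximalIdeal T ^ k ≤ Ideal.span {((p ^ n : ℕ) : T)} := by
  have hx : ((p ^ n : ℕ) : 𝒪) ≠ 0 := Nat.cast_ne_zero.2 (pow_ne_zero n hp.ne_zero)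
  have h := s59std_pow_le (T := T) hx
  rwa [map_natCast] at h

/-- **S33-STRICT.**  The representation of a Hecke–Galois datum of level `N`, `p ∥ N`, `p` odd,
whose residual representation is ordinary and très ramifié at `p`, is STRICTLY ordinary at `p`. -/
theorem s59st_datum [Finite (IsLocalRing.ResidueField 𝒪)] [CharZero 𝒪]
    (hp : p.Prime) (hp2 : p ≠ 2) (hp𝒪 : (p : 𝒪) ∈ IsLocalRing.maximalIdeal 𝒪)
    (hN : p ∣ N ∧ ¬ p ^ 2 ∣ N)
    (hNS : ∀ q : ℕ, q.Prime → q ∣ N → q ∈ S)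
    (H : CuspForm.HeckeGaloisRepDatum N (↑S : Set ℕ) 𝒪 θ T)
    (hres : (GaloisRepAdic.ofResidualGaloisRep H.ρ.residual).IsOrdinaryAt p)
    (htres : s59stTresBar H.ρ.residual p) :
    H.ρ.IsStrictOrdinaryAt p :=
  s59st_strict_of_kumRel s59st_kumRel hp hp2 (fun n => s59std_pow_le_p (𝒪 := 𝒪) hp n) H.ρ
    (Fermat.Agent.S33.detIsCyclotomic_of_datum hp hp𝒪 H)
    (Fermat.Agent.S33.s33_of_wild Fermat.Agent.S33.stmtWildT hp hp2 hp𝒪 hN hNS H hres)
    (s59st_tres_of_residual H.ρ htres)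

end Datum

end Fermat.Agent.S59

end
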