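/-
S59, wall (b) (W multiplicative at `p`, `ρ̄` NOT peu ramifié; `𝒟 = twOrd`, `p ∥ N₀`) — helper43:
**ASSEMBLY of case (b)** = the twin of helper67's `S59/TopAsmA.lean`.

`s59sta_owed_ord` : `s59topo_StmtOwedOrd s59staCond` (S59/TopOrd.lean, helper80) from

* a1 ✓ `s59tbig_exists_strong` (helper56), a3 ✓ `s59teig_exists_psi`, a7 ✓ `s59tres_hψ_of_resMod`
  (helper80), a8 ✓ `s59tcar_exists`, S33-STRICT ✓ (`s59st_datum`, through `s59topos_strict`),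
* S29 ✓ and S22 ✓ as Props,
* and the three OPEN inputs of case (b), as explicit Props:
    `s59sta_StmtMinLevB`  (MINLEV-B; `s59sta_minLevB_of_walls` : from M1, LOWQ-ORD, RAISE ✓),
    `s59sta_StmtDefCond`  (DEF-COND for `twOrd`),
    `s59sta_StmtR2R1`     (R2-INST, E-BASE, R1 = MIN′ for `twOrd`: the TW levels with `p ∥ N`).

THE CASE CONDITION  `s59staCond W p` := `p ∣ Δ_W` and `ρ̄_{W,p}` (over `𝔽_p`) is NOT peu ramifié at `p`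
(`¬ s59psPeuTriv`); its complement among the bad primes is `s59staCondC W p` (= case (c), wall M5).

* `s59sta_stages`      : (STAGES) at `s59staCond` from the three Props;
* `s59sta_stages_bad`  : (STAGES) at `¬ good` from (STAGES) at `s59staCond` and at `s59staCondC`.
-/
import Fermat.Agent.S59.TopOrdStrict
import Fermat.Agent.S59.TopAsmA
import Fermat.Agent.S59.Strict.MinLevOrd

set_option autoImplicit false
set_option linter.style.haveILetI false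
set_option linter.unusedSectionVars false
set_option linter.unusedVariables false
set_option linter.style.longLine false

noncomputable section

namespace Fermat.Agent.S59

open IsLocalRing Polynomial Fermat.Agent.TW Fermat.Agent.S53 Fermat.Agent.EC

/-- **case (b)**: `W` is bad at `p` and `ρ̄_{W,p}` is NOT peu ramifié at `p`. -/
def s59staCond (W : WeierstrassCurve ℤ) (p : ℕ) : Prop :=
  (p : ℤ) ∣ W.Δ ∧ ∀ (hΔ : W.Δ ≠ 0) (hp : Fact p.Prime),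
    ¬ s59psPeuTriv (GaloisRepAdic.ofResidualGaloisRep (tateRepInt W hΔ p).residual) p

/-- **case (c)**: `W` is bad at `p` and `ρ̄_{W,p}` is peu ramifié at `p`. -/
def s59staCondC (W : WeierstrassCurve ℤ) (p : ℕ) : Prop :=
  (p : ℤ) ∣ W.Δ ∧ ∀ (hΔ : W.Δ ≠ 0) (hp : Fact p.Prime),
    s59psPeuTriv (GaloisRepAdic.ofResidualGaloisRep (tateRepInt W hΔ p).residual) p

theorem s59sta_cond_bad {W : WeierstrassCurve ℤ} {p : ℕ} (h : s59staCond W p) :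
    (p : ℤ) ∣ W.Δ := h.1

theorem s59sta_condC_bad {W : WeierstrassCurve ℤ} {p : ℕ} (h : s59staCondC W p) :
    (p : ℤ) ∣ W.Δ := h.1

/-- a bad prime is in case (b) or in case (c). -/
theorem s59sta_cond_or (W : WeierstrassCurve ℤ) (hΔ : W.Δ ≠ 0) (p : ℕ) [hp : Fact p.Prime]
    (hbad : ¬ W.IsGoodPrimeFor p) : s59staCond W p ∨ s59staCondC W p := by
  classical
  have hb : (p : ℤ) ∣ W.Δ := by
    by_contra h
    exact hbad h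
  by_cases h : s59psPeuTriv (GaloisRepAdic.ofResidualGaloisRep (tateRepInt W hΔ p).residual) p
  · exact Or.inr ⟨hb, fun _ _ => h⟩
  · exact Or.inl ⟨hb, fun _ _ => h⟩

/-- (STAGES) at the bad primes from the cases (b) and (c). -/
theorem s59sta_stages_bad (hb : s59topw_StmtStagesAt s59staCond)
    (hc : s59topw_StmtStagesAt s59staCondC) :
    s59topw_StmtStagesAt fun W p => ¬ W.IsGoodPrimeFor p := by
  intro p _ hp W hΔ hW hirr hcW M₀ _ hres hM₀ hM₀3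
  rcases s59sta_cond_or W hΔ p hcW with h | h
  · exact hb p hp W hΔ hW hirr h M₀ hres hM₀ hM₀3
  · exact hc p hp W hΔ hW hirr h M₀ hres hM₀ hM₀3

section Strict

variable (W : WeierstrassCurve ℤ) (hΔ : W.Δ ≠ 0) (p : ℕ) [hp : Fact p.Prime]
variable {𝒪 : Type} [CommRing 𝒪] [IsDomain 𝒪] [IsDiscreteValuationRing 𝒪]
  [IsAdicComplete (maximalIdeal 𝒪) 𝒪] [Finite (ResidueField 𝒪)] [CharZero 𝒪]
  (φ : ℤ_[p] →+* 𝒪) (hφ : IsLocalHom φ)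

/-- `ρ̄_W ⊗ k` is très ramifié in case (b). -/
theorem s59sta_tresBar (h : s59staCond W p) : s59stTresBar (s59feBar W hΔ p φ hφ) p :=
  s59st_tresBar_baseChange _ _ (s59st_tresBar_of_not_peuTriv hp.out _ (h.2 hΔ hp))

/-- **S33-STRICT in case (b)**: the conjunct `s59topo_StmtStrict` of `s59topo_StmtOwedOrd`. -/
theorem s59sta_strict (hss : W.IsSemistableModel) (hp35 : p = 3 ∨ p = 5)
    (h : s59staCond W p) : s59topo_StmtStrict 𝒪 p (s59feBar W hΔ p φ hφ) := by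
  have hp2 : p ≠ 2 := by rcases hp35 with rfl | rfl <;> decide
  exact s59topos_strict hp.out hp2 (s59fe_p_mem p φ hφ) _
    (s59topos_ordBar W hΔ p φ hφ hss hp35 h.1) (s59sta_tresBar W hΔ p φ hφ h)

end Strict

/-- **MINLEV-B**: `ρ̄_{W,p}` is modular of the base level `N₀ = ∏ Smin` (`p ∥ N₀`). -/
def s59sta_StmtMinLevB : Prop :=
  ∀ (p : ℕ) [Fact p.Prime], (p = 3 ∨ p = 5) → ∀ (W : WeierstrassCurve ℤ) (hΔ : W.Δ ≠ 0),
    W.IsSemistableModel → W.ModRepIsIrreducible p → s59staCond W p →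
    ∀ (M₀ : ℕ) [NeZero M₀], W.IsResiduallyModularOfLevel p M₀ → ¬ p ^ 2 ∣ M₀ →
    (∀ q : ℕ, q.Prime → q ≠ p → ¬ q ^ 3 ∣ M₀) →
    W.IsResiduallyModularOfLevel p (s59stmN0 W hΔ p)

/-- MINLEV-B from the walls (`s59stm_minlev`). -/
theorem s59sta_minLevB_of_walls (hM1 : s59lsq_StmtWall) (hQ : s59stm_StmtLowQOrd)
    (hraise : LowQ.s59lq_StmtRaise) : s59sta_StmtMinLevB := by
  intro p _ hp W hΔ hW hirr hc M₀ _ hres hM₀ hM₀3
  exact s59stm_minlev hM1 hQ hraise p hp W hΔ hW hirr hc.1 M₀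
    (Nat.pos_of_ne_zero (NeZero.ne M₀)) hres hM₀ hM₀3

/-- **DEF-COND for `twOrd`**: the universal rings of type `twOrd` exist. -/
def s59sta_StmtDefCond : Prop :=
  ∀ (p : ℕ) [Fact p.Prime], (p = 3 ∨ p = 5) → ∀ (W : WeierstrassCurve ℤ) (hΔ : W.Δ ≠ 0),
    W.IsSemistableModel → W.ModRepIsIrreducible p → s59staCond W p →
    ∀ (𝒪 : Type) [CommRing 𝒪] [IsDomain 𝒪] [IsDiscreteValuationRing 𝒪]
      [IsAdicComplete (maximalIdeal 𝒪) 𝒪] [CharZero 𝒪] [Finite (ResidueField 𝒪)]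
      (φ : ℤ_[p] →+* 𝒪) (hφ : IsLocalHom φ),
      TWHyp 𝒪 p (s59feBar W hΔ p φ hφ) (s59feSmin W hΔ p ∪ s59feSigma W hΔ p)
        (s59feSmin W hΔ p) →
      ∀ Q : Finset ℕ, Q ⊆ s59feSigma W hΔ p →
        Nonempty (GaloisRep.DeformationRingData 𝒪 (s59feBar W hΔ p φ hφ)
          (twOrd 𝒪 p (s59feSmin W hΔ p) Q))

/-- **R2-INST, E-BASE, R1 = MIN′ for `twOrd`**, for the data produced by a1, a3, a7, a8 at the
base level `N₀ = ∏ Smin` (`p ∥ N₀`): the twin of `s59tasm_StmtR2R1`. -/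
def s59sta_StmtR2R1 : Prop :=
  ∀ (p : ℕ) [Fact p.Prime], (p = 3 ∨ p = 5) → ∀ (W : WeierstrassCurve ℤ) (hΔ : W.Δ ≠ 0),
    W.IsSemistableModel → W.ModRepIsIrreducible p → s59staCond W p →
    W.IsResiduallyModularOfLevel p (s59stmN0 W hΔ p) →
    ∀ (𝒪 : Type) [CommRing 𝒪] [IsDomain 𝒪] [IsDiscreteValuationRing 𝒪]
      [IsAdicComplete (maximalIdeal 𝒪) 𝒪] [CharZero 𝒪] [Finite (ResidueField 𝒪)]
      (φ : ℤ_[p] →+* 𝒪) (hφ : IsLocalHom φ) [NeZero (s59stmN0 W hΔ p)],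
      Function.Injective φ →
      TWHyp 𝒪 p (s59feBar W hΔ p φ hφ) (s59feSmin W hΔ p ∪ s59feSigma W hΔ p)
        (s59feSmin W hΔ p) →
      -- S33-STRICT
      s59topo_StmtStrict 𝒪 p (s59feBar W hΔ p φ hφ) →
      -- E-BIG, literal and strong, at all the levels and at the base level
      (∀ Q : Finset ℕ, Q ⊆ s59feSigma W hΔ p → ∀ (N : ℕ) [NeZero N],
        N = s59tops_level (s59stmN0 W hΔ p) Q →
        ∀ θ : CuspForm.heckeAlgebra N 2 (↑(s59feSmin W hΔ p ∪ Q) : Set ℕ) →+* ResidueField 𝒪,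
          s59p_IsBig 𝒪 N (↑(s59feSmin W hΔ p ∪ Q) : Set ℕ) θ) →
      (∀ Q : Finset ℕ, Q ⊆ s59feSigma W hΔ p → ∀ (N : ℕ) [NeZero N],
        N = s59tops_level (s59stmN0 W hΔ p) Q →
        ∀ (B : Type) [CommRing B] [IsDomain B] [Algebra 𝒪 B]
          (χ : CuspForm.heckeAlgebra N 2 (↑(s59feSmin W hΔ p ∪ Q) : Set ℕ) →+* B)
          (t : CuspForm.heckeAlgebra N 2 (↑(s59feSmin W hΔ p ∪ Q) : Set ℕ)),
          χ t ∈ Set.range (algebraMap 𝒪 B)) →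
      (∀ (B : Type) [CommRing B] [IsDomain B] [Algebra 𝒪 B]
        (χ : CuspForm.heckeAlgebra (s59stmN0 W hΔ p) 2 (↑(s59feSmin W hΔ p) : Set ℕ) →+* B)
        (t : CuspForm.heckeAlgebra (s59stmN0 W hΔ p) 2 (↑(s59feSmin W hΔ p) : Set ℕ)),
        χ t ∈ Set.range (algebraMap 𝒪 B)) →
      -- the base form and its eigensystem
      ∀ (f : CuspForm (CongruenceSubgroup.Gamma0 (s59stmN0 W hΔ p)) 2)
        (𝔪 : Ideal (integralClosure ℤ ℂ)), f.IsNormalizedEigenform → 𝔪.IsMaximal →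
        (p : integralClosure ℤ ℂ) ∈ 𝔪 →
        (∀ ℓ : ℕ, ℓ.Prime → W.IsGoodPrimeFor ℓ → ¬ ℓ ∣ s59stmN0 W hΔ p → ℓ ≠ p →
          ∃ a : integralClosure ℤ ℂ, (a : ℂ) = ModularFormClass.qCoeff f ℓ ∧
            a - ((W.apOfModel ℓ : ℤ) : integralClosure ℤ ℂ) ∈ 𝔪) →
      ∀ (ψ : ℕ → 𝒪)
        (χ₀ : CuspForm.heckeAlgebra (s59stmN0 W hΔ p) 2 (↑(s59feSmin W hΔ p) : Set ℕ) →+* 𝒪),
        (∀ (ℓ : ℕ) (hℓ : ℓ.Prime) (hℓN : ¬ ℓ ∣ s59stmN0 W hΔ p)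
          (hℓS : ℓ ∉ (↑(s59feSmin W hΔ p) : Set ℕ)),
          χ₀ (CuspForm.heckeAlgebra.T hℓ hℓN hℓS) = ψ ℓ) →
        (∀ ℓ : ℕ, ℓ.Prime → ¬ ℓ ∣ s59stmN0 W hΔ p → ℓ ∉ (↑(s59feSmin W hΔ p) : Set ℕ) →
          ∀ (a : integralClosure ℤ ℂ) (n : ℤ), (a : ℂ) = ModularFormClass.qCoeff f ℓ →
          a - (n : integralClosure ℤ ℂ) ∈ 𝔪 → residue 𝒪 (ψ ℓ) = (n : ResidueField 𝒪)) →
        (∀ ℓ : ℕ, ℓ.Prime → ℓ ∉ s59feSmin W hΔ p → ¬ ℓ ∣ s59stmN0 W hΔ p →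
          ∀ P : ValuationSubring (AlgebraicClosure ℚ), P.LiesOverPrime ℓ →
          ∀ τ : AlgebraicClosure ℚ ≃ₐ[ℚ] AlgebraicClosure ℚ, P.IsFrobeniusAt τ ℓ →
            residue 𝒪 (ψ ℓ) = LinearMap.trace (ResidueField 𝒪) (s59feBar W hΔ p φ hφ).V
              ((s59feBar W hΔ p φ hφ).ρ τ)) →
      -- the base lift
      ∀ ρ₀ : GaloisRepAdic 𝒪, ρ₀.residual.IsAbsolutelyIrreducible → ρ₀.DetIsCyclotomic p →
        (∀ ℓ : ℕ, ℓ.Prime → ℓ ∉ s59feSmin W hΔ p →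
          ∀ P : ValuationSubring (AlgebraicClosure ℚ), P.LiesOverPrime ℓ →
          ∀ φ' : AlgebraicClosure ℚ ≃ₐ[ℚ] AlgebraicClosure ℚ, P.IsFrobeniusAt φ' ℓ →
            LinearMap.trace 𝒪 ρ₀.V (ρ₀.ρ φ') = ψ ℓ) →
        (∀ q : ℕ, q.Prime → ¬ q ∣ s59stmN0 W hΔ p * p → ρ₀.IsUnramifiedAt q) →
        (∀ (S' : Finset ℕ) (ρ₁ : GaloisRepAdic 𝒪), ρ₁.DetIsCyclotomic p →
          (∀ ℓ : ℕ, ℓ.Prime → ℓ ∉ S' →
            ∀ P : ValuationSubring (AlgebraicClosure ℚ), P.LiesOverPrime ℓ →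
            ∀ φ' : AlgebraicClosure ℚ ≃ₐ[ℚ] AlgebraicClosure ℚ, P.IsFrobeniusAt φ' ℓ →
              LinearMap.trace 𝒪 ρ₁.V (ρ₁.ρ φ') = ψ ℓ) → ρ₁.IsEquiv ρ₀) →
      ∃ R2 : S59R2Data 𝒪 p ψ,
        (∃ x₀ : R2.X, R2.lev x₀ = s59stmN0 W hΔ p ∧ R2.Good x₀) ∧
        ∀ s₀ : S59Stage 𝒪 (s59feBar W hΔ p φ hφ) (twOrd 𝒪 p (s59feSmin W hΔ p) ∅),
          s59tops_inv R2 ρ₀ (s59feSmin W hΔ p) (s59stmN0 W hΔ p) ∅ s₀ →
          s₀.lPhi ≤ Module.length 𝒪 (𝒪 ⧸ s₀.etaL)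

/-- **Case (b), assembled**: what is owed in case (b) from S29 ✓, S22 ✓, S33-STRICT ✓ and the
three open inputs MINLEV-B, DEF-COND (`twOrd`), R2-INST + E-BASE + R1 (`twOrd`). -/
theorem s59sta_owed_ord (hS29 : s59tres_StmtS29)
    (hfin : ∀ (N : ℕ) [NeZero N] (S : Set ℕ), Module.Finite ℤ (CuspForm.heckeAlgebra N 2 S))
    (hMin : s59sta_StmtMinLevB) (hDef : s59sta_StmtDefCond) (hR : s59sta_StmtR2R1) :
    s59topo_StmtOwedOrd s59staCond := by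
  intro p _ hp W hΔ hW hirr hc M₀ _ hres hM₀ hM₀3
  classical
  have hpp : p.Prime := Fact.out
  -- the base level
  have hN0ne : s59stmN0 W hΔ p ≠ 0 := s59stm_N0_ne_zero W hΔ p
  haveI : NeZero (s59stmN0 W hΔ p) := ⟨hN0ne⟩
  have hN0 : ∀ ℓ : ℕ, ℓ.Prime → (ℓ ∣ s59stmN0 W hΔ p ↔ ℓ ∈ s59feSmin W hΔ p) :=
    fun ℓ hℓ => s59stm_N0_dvd_iff W hΔ p ℓ hℓ
  have hNS : ∀ q : ℕ, q.Prime → q ∣ s59stmN0 W hΔ p → q ∈ s59feSmin W hΔ p :=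
    fun q hq hd => (hN0 q hq).1 hd
  have hpSmin : p ∈ s59feSmin W hΔ p := s59fe_p_mem_Smin W hΔ p
  -- MINLEV-B
  have hres0 : W.IsResiduallyModularOfLevel p (s59stmN0 W hΔ p) :=
    hMin p hp W hΔ hW hirr hc M₀ hres hM₀ hM₀3
  -- a1
  obtain ⟨𝒪, i1, i2, i3, i4, i5, i6, φ, hφ, hinj, hp𝒪, hK, hBig, hStrong, -, hStrong0⟩ :=
    s59tbig_exists_strong p hfin (s59stmN0 W hΔ p) (s59feSmin W hΔ p) (s59feSigma W hΔ p)
      (fun q hq => (s59fe_prime_of_mem_Sigma W hΔ p hq).ne_zero)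
  have hTW : TWHyp 𝒪 p (s59feBar W hΔ p φ hφ) (s59feSmin W hΔ p ∪ s59feSigma W hΔ p)
      (s59feSmin W hΔ p) := s59fe_twHyp_union W hΔ p φ hφ hp hK hW hirr
  -- S33-STRICT
  have hstrict : s59topo_StmtStrict 𝒪 p (s59feBar W hΔ p φ hφ) :=
    s59sta_strict W hΔ p φ hφ hW hp hc
  -- a7, first half: the base form
  obtain ⟨f, 𝔪, hf, h𝔪, hp𝔪, hcong, hψ_of⟩ :=
    s59tres_hψ_of_resMod W hΔ p φ hφ hS29 (s59feSmin W hΔ p) hpSmin (s59stmN0 W hΔ p) hN0ne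
      hres0
  -- a3
  obtain ⟨χ₀, ψ, hχ₀, hψ0⟩ := s59teig_exists_psi p hp𝒪 (s59stmN0 W hΔ p)
    (↑(s59feSmin W hΔ p) : Set ℕ) (fun q hq hd => Finset.mem_coe.2 (hNS q hq hd)) hStrong0 f hf
    𝔪 h𝔪 hp𝔪
  -- a7
  have hψ := hψ_of ψ (fun ℓ hℓ hℓN hℓS a n ha hn =>
    hψ0 ℓ hℓ hℓN (fun h => hℓS (Finset.mem_coe.1 h)) a n ha hn)
  -- a8
  obtain ⟨ρ₀, habs₀, hdet₀, htr₀, hunr₀, hcar⟩ := s59tcar_exists p hTW.hp2 hTW.hp𝒪
    (s59feBar W hΔ p φ hφ) hTW.habs (s59feSmin W hΔ p) hpSmin (s59stmN0 W hΔ p) hNS ψ χ₀ hχ₀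
    (s59topg_hdet hTW) hψ
  -- DEF-COND
  have hD := hDef p hp W hΔ hW hirr hc 𝒪 φ hφ hTW
  -- R2-INST + E-BASE + R1
  obtain ⟨R2, hbase, hR1⟩ := hR p hp W hΔ hW hirr hc hres0 𝒪 φ hφ hinj hTW hstrict hBig
    hStrong hStrong0 f 𝔪 hf h𝔪 hp𝔪 hcong ψ χ₀ hχ₀ hψ0 hψ ρ₀ habs₀ hdet₀ htr₀ hunr₀ hcar
  exact ⟨𝒪, i1, i2, i3, i4, i5, i6, φ, hφ, s59stmN0 W hΔ p, ψ, R2, ρ₀, hK, hN0,
    s59stm_N0_squarefree W hΔ p, hstrict, hD, hψ, hcar, hBig, hbase, hR1⟩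

/-- **(STAGES) in case (b)** from the three open inputs. -/
theorem s59sta_stages (hS29 : s59tres_StmtS29)
    (hfin : ∀ (N : ℕ) [NeZero N] (S : Set ℕ), Module.Finite ℤ (CuspForm.heckeAlgebra N 2 S))
    (hMin : s59sta_StmtMinLevB) (hDef : s59sta_StmtDefCond) (hR : s59sta_StmtR2R1) :
    s59topw_StmtStagesAt s59staCond :=
  s59topo_stages_ord s59staCond (fun _ _ h => h.1) (s59sta_owed_ord hS29 hfin hMin hDef hR)

end Fermat.Agent.S59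

end
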