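/-
S59 — helper43: **LOWER-Q GLUE**: the two forms of LOWER-Q consumed by MINLEV

* `s59topm_StmtLowQ`      (squarefree levels PRIME to `p`; cases (a), (c); `S59/TopMinLevW.lean`),
* `s59stm_StmtLowQOrd`    (squarefree levels DIVISIBLE by `p`; case (b); `Strict/MinLevOrd.lean`)

are stated with `ρ̄ = (tateRepInt W hΔ p).residual`; the LowQ machine (`S59/LowQ/Plan.lean`) produces
the frozen type of S38 (`s59lq_Wall p`, `ρ̄ = residualGaloisRepOf`) from its leaves MP, TR, RAISE,
with NO hypothesis on `p ∣ M`.  This file is the bridge: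

* `s59stq_unram`         : `ρ̄_W` (Tate module form) unramified at `q` ⇒ `E[p]` unramified at `q`
                           pointwise (`s59lq_Unram`), by the residual dictionary `s59lppb_dict`;
* `s59stq_StmtLowQPt`    : LOWER-Q in pointwise form, at ALL squarefree levels, `p ∈ {3, 5}`;
* `s59stq_pt_of_leaves`  : from the leaves MP (on `p' = p`), TR, RAISE of the LowQ machine;
* `s59stq_pt_of_wall`    : from the frozen type of S38 at `p = 3` and `p = 5` (`s59lq_Wall`);
* `s59stq_lowQ`, `s59stq_lowQOrd` : the two forms consumed by MINLEV.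

So LOWQ-ORD is NOT a new wall: it is the wall LOWER-Q (`s59lq_Wall 3`, `s59lq_Wall 5`) itself.
-/
import Fermat.Agent.S59.Strict.MinLevOrd
import Fermat.Agent.S59.LowQ.Plan
import Fermat.Agent.S59.LowP.PeuInfBridge
import Fermat.Agent.RED.ModelTrace
import Fermat.Agent.S42.FreyField

set_option autoImplicit false
set_option linter.style.haveILetI false
set_option linter.unusedSectionVars false
set_option linter.unusedVariables false
set_option linter.style.longLine false

noncomputable section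

namespace Fermat.Agent.S59

open IsLocalRing Fermat.Agent.S59.LowQ Fermat.Agent.EC Fermat.Agent.TW
open WeierstrassCurve WeierstrassCurve.Affine WeierstrassCurve.Affine.Point

/-- `ρ̄_W` (the residual representation of the Tate module) unramified at `q` ⇒ `E[p](ℚ̄)` is
unramified at `q`, pointwise. -/
theorem s59stq_unram (W : WeierstrassCurve ℤ) (hΔ : W.Δ ≠ 0) (p : ℕ) [Fact p.Prime] (q : ℕ)
    (h : (tateRepInt W hΔ p).residual.IsUnramifiedAt q) : s59lq_Unram W p q :=
  fun A hA τ hτ y => s59lppb_dict W hΔ p τ (h A hA τ hτ) y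

/-- **LOWER-Q, pointwise form, at ALL squarefree levels** (`p ∣ M` allowed), `p ∈ {3, 5}`. -/
def s59stq_StmtLowQPt : Prop :=
  ∀ (p : ℕ) [Fact p.Prime], (p = 3 ∨ p = 5) → ∀ (W : WeierstrassCurve ℤ), W.Δ ≠ 0 →
    W.IsSemistableModel → W.ModRepIsIrreducible p →
    ∀ M q : ℕ, Squarefree M → q.Prime → q ≠ p → q ∣ M → s59lq_Unram W p q →
      W.IsResiduallyModularOfLevel p M → W.IsResiduallyModularOfLevel p (M / q)

/-- LOWER-Q (pointwise) from the leaves MP, TR, RAISE of the LowQ machine. -/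
theorem s59stq_pt_of_leaves
    (hMP : ∀ p : ℕ, (p = 3 ∨ p = 5) → s59lq_StmtMPOn (fun p' _ _ => p' = p))
    (hTR : ∀ p : ℕ, (p = 3 ∨ p = 5) → s59lq_StmtTR p) (hRaise : s59lq_StmtRaise) :
    s59stq_StmtLowQPt := by
  intro p _ hp W hΔ hW hirr M q hM hq hqp hqM hunr hres
  obtain ⟨M', hM'M, hqM', hmod'⟩ :=
    s59lq_lowered_of_leaves p (hMP p hp) (hTR p hp) W hΔ hW hirr M hM hres q hq hqp hqM hunr
  have hMpos : 0 < M := Nat.pos_of_ne_zero (by
    rintro rfl
    exact not_squarefree_zero hM)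
  have hdiv : M' ∣ M / q := by
    have hco : Nat.Coprime M' q :=
      (Nat.Coprime.symm ((Nat.Prime.coprime_iff_not_dvd hq).2 hqM'))
    have h1 : M' ∣ (M / q) * q := by rw [Nat.div_mul_cancel hqM]; exact hM'M
    exact hco.dvd_of_dvd_mul_right h1
  have hne : M / q ≠ 0 := by
    intro h0
    have := Nat.div_mul_cancel hqM
    rw [h0, zero_mul] at this
    exact hMpos.ne' this.symm
  exact hRaise W p M' (M / q) hne hdiv hmod'

/-- LOWER-Q (pointwise) from the frozen type of S38 at `p = 3` and `p = 5`. -/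
theorem s59stq_pt_of_wall (hwall : ∀ p : ℕ, (p = 3 ∨ p = 5) → s59lq_Wall p) :
    s59stq_StmtLowQPt := by
  intro p hpF hp W hΔ hW hirr M q hM hq hqp hqM hunr hres
  have hpp : p.Prime := hpF.out
  have hp2 : p ≠ 2 := by rcases hp with rfl | rfl <;> decide
  have hcard := Fermat.Agent.RED.card_torsQbar W hΔ hpp.ne_zero
  have hfin : Finite (Submodule.torsionBy ℤ
      ((W.map (Int.castRingHom ℚ))⁄(AlgebraicClosure ℚ)).Point p) := by
    apply Nat.finite_of_card_ne_zero
    rw [hcard]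
    exact pow_ne_zero _ hpp.ne_zero
  have hker : GaloisFactorsThroughFiniteLevel
      (galoisRepModuleEnd (K := AlgebraicClosure ℚ) ℚ (W.map (Int.castRingHom ℚ)) p) := by
    obtain ⟨E₀, hE₀, h⟩ :=
      Fermat.Agent.S42.finite_level_of_finite_torsion (W.map (Int.castRingHom ℚ)) p hfin
    refine ⟨E₀, hE₀, fun σ hσ => ?_⟩
    apply LinearMap.ext
    intro x
    exact h σ hσ x
  have hq2 : ¬ q ^ 2 ∣ M := by
    intro h
    have h1 : q * q ∣ M := by rwa [pow_two] at h
    exact hq.one_lt.ne' (Nat.isUnit_iff.1 (hM q h1))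
  refine @hwall p hp hpF hp2 W hΔ hW hcard hker hirr M q hq hqp hqM hq2 hM ?_ hres
  intro A hA τ hτ
  apply LinearMap.ext
  intro y
  exact hunr A hA τ hτ y

/-- **LOWER-Q in the form consumed by MINLEV, cases (a) and (c)**. -/
theorem s59stq_lowQ (h : s59stq_StmtLowQPt) : s59topm_StmtLowQ := by
  intro p _ hp W hΔ hW hirr M q hM _ hq hqp hqM hunr hres
  exact h p hp W hΔ hW hirr M q hM hq hqp hqM (s59stq_unram W hΔ p q hunr) hres

/-- **LOWQ-ORD = LOWER-Q in the form consumed by MINLEV-B, case (b)**. -/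
theorem s59stq_lowQOrd (h : s59stq_StmtLowQPt) : s59stm_StmtLowQOrd := by
  intro p _ hp W hΔ hW hirr _ M q hM _ hq hqp hqM hunr hres
  exact h p hp W hΔ hW hirr M q hM hq hqp hqM (s59stq_unram W hΔ p q hunr) hres

/-- both forms from the frozen type of S38 at `p = 3` and `p = 5`. -/
theorem s59stq_both_of_wall (hwall : ∀ p : ℕ, (p = 3 ∨ p = 5) → s59lq_Wall p) :
    s59topm_StmtLowQ ∧ s59stm_StmtLowQOrd :=
  ⟨s59stq_lowQ (s59stq_pt_of_wall hwall), s59stq_lowQOrd (s59stq_pt_of_wall hwall)⟩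

/-- both forms from the leaves of the LowQ machine. -/
theorem s59stq_both_of_leaves
    (hMP : ∀ p : ℕ, (p = 3 ∨ p = 5) → s59lq_StmtMPOn (fun p' _ _ => p' = p))
    (hTR : ∀ p : ℕ, (p = 3 ∨ p = 5) → s59lq_StmtTR p) (hRaise : s59lq_StmtRaise) :
    s59topm_StmtLowQ ∧ s59stm_StmtLowQOrd :=
  ⟨s59stq_lowQ (s59stq_pt_of_leaves hMP hTR hRaise),
    s59stq_lowQOrd (s59stq_pt_of_leaves hMP hTR hRaise)⟩

end Fermat.Agent.S59

end
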