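/-
S59, wall (b) (W multiplicative at `p`, `ρ̄` NOT peu ramifié; `𝒟 = twOrd`, `p ∥ N₀`) — helper43:
**CASE (b) ASSEMBLED FROM THE LANDED PIECES** = the twin of the captain's `S59/TopOwed.lean`.

`s59stw_owed_ord` : `s59topo_StmtOwedOrd s59staCond` (everything that is owed in case (b)) from

* the walls of MINLEV-B : M1 `s59lsq_StmtWall`, LOWQ-ORD `s59stm_StmtLowQOrd` (+ RAISE ✓),
* the contract of the minimal case (R1-ORD) `s59stw_StmtR1`, for the R2 instance `s59asmR2`,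
* S22 ✓ and S29 ✓ (as hypotheses: no root is imported here).

Everything else is plugged in: E-BIG (helper56), BASE-EIG (helper67), R2-INST + E-BASE (helper72),
DEF-COND for `twOrd` (helper63 `s59dcfin_hD_ord`), HGD-RES (helper80), CAR (helper63 / helper67),
S33-STRICT (helper43 `s59st_datum`, through `s59sta_strict`).

`s59stw_stages`     : (STAGES) at the case (b) from these hypotheses;
`s59stw_result`     : frozen S59 from S58 ✓, case (a) (`s59topb_StmtOwedGood'`), the hypotheses of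
                      case (b) and (STAGES) at the case (c).
-/
import Fermat.Agent.S59.Strict.AsmOrd
import Fermat.Agent.S59.TopBase
import Fermat.Agent.S59.TopR2
import Fermat.Agent.S59.TopBig2
import Fermat.Agent.S59.TopEig
import Fermat.Agent.S59.TopResEig
import Fermat.Agent.S59.DefCond.Final
import Fermat.Agent.S59.TopCar

set_option autoImplicit false
set_option linter.style.haveILetI false
set_option linter.unusedSectionVars false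
set_option linter.unusedVariables false
set_option linter.style.longLine false

noncomputable section

namespace Fermat.Agent.S59

open IsLocalRing Polynomial Fermat.Agent.TW Fermat.Agent.S53

/-- **(R1-ORD) THE CONTRACT OF THE MINIMAL CASE, ORDINARY TYPE**, for the R2 instance `s59asmR2`:
the numerical inequality `length Φ ≤ length (𝒪 ⧸ J)` at EVERY stage for `Σ = ∅` (type `twOrd`)
with the invariant, at the base level `N₀` (`ℓ ∣ N₀ ↔ ℓ ∈ Smin`, squarefree, so `p ∥ N₀`), for a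
big `𝒪`, the eigensystem `ψ` of a form `f` of level `N₀` congruent to `W`, `W` in the case (b);
S33-STRICT is available as a hypothesis. -/
def s59stw_StmtR1 : Prop :=
  ∀ (p : ℕ) [Fact p.Prime] (_ : p = 3 ∨ p = 5) (hp2 : p ≠ 2)
    (W : WeierstrassCurve ℤ) (hΔ : W.Δ ≠ 0) (_ : W.IsSemistableModel)
    (hirr : W.ModRepIsIrreducible p) (_ : s59staCond W p)
    (N0 : ℕ) [NeZero N0] (_ : ∀ ℓ : ℕ, ℓ.Prime → (ℓ ∣ N0 ↔ ℓ ∈ s59feSmin W hΔ p))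
    (_ : Squarefree N0)
    (f : CuspForm (CongruenceSubgroup.Gamma0 N0) 2) (𝔪 : Ideal (integralClosure ℤ ℂ))
    (_ : f.IsNormalizedEigenform) (_ : 𝔪.IsMaximal) (_ : (p : integralClosure ℤ ℂ) ∈ 𝔪)
    (_ : ∀ ℓ : ℕ, ℓ.Prime → W.IsGoodPrimeFor ℓ → ¬ ℓ ∣ N0 → ℓ ≠ p →
      ∃ a : integralClosure ℤ ℂ, (a : ℂ) = ModularFormClass.qCoeff f ℓ ∧
        a - ((W.apOfModel ℓ : ℤ) : integralClosure ℤ ℂ) ∈ 𝔪)
    (𝒪 : Type) [CommRing 𝒪] [IsDomain 𝒪] [IsDiscreteValuationRing 𝒪]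
    [IsAdicComplete (maximalIdeal 𝒪) 𝒪] [CharZero 𝒪] [Finite (ResidueField 𝒪)]
    (φ : ℤ_[p] →+* 𝒪) (hφ : IsLocalHom φ) (_ : Function.Injective φ)
    (hp𝒪 : (p : 𝒪) ∈ maximalIdeal 𝒪)
    (_ : ∀ (ι : ZMod p →+* ResidueField 𝒪) (g : (ZMod p)[X]), g.Monic → g.natDegree = 2 →
      ∃ α β : ResidueField 𝒪, g.map ι = (X - C α) * (X - C β))
    (_ : s59topo_StmtStrict 𝒪 p (s59feBar W hΔ p φ hφ))
    (_ : ∀ (B : Type) [CommRing B] [IsDomain B] [Algebra 𝒪 B]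
      (χ : CuspForm.heckeAlgebra N0 2 (↑(s59feSmin W hΔ p) : Set ℕ) →+* B)
      (t : CuspForm.heckeAlgebra N0 2 (↑(s59feSmin W hΔ p) : Set ℕ)),
      χ t ∈ Set.range (algebraMap 𝒪 B))
    (ψ : ℕ → 𝒪) (χ₀ : CuspForm.heckeAlgebra N0 2 (↑(s59feSmin W hΔ p) : Set ℕ) →+* 𝒪)
    (_ : ∀ (ℓ : ℕ) (hℓ : ℓ.Prime) (hℓN : ¬ ℓ ∣ N0)
      (hℓS : ℓ ∉ (↑(s59feSmin W hΔ p) : Set ℕ)),
      χ₀ (CuspForm.heckeAlgebra.T hℓ hℓN hℓS) = ψ ℓ)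
    (_ : ∀ ℓ : ℕ, ℓ.Prime → ¬ ℓ ∣ N0 → ℓ ∉ (↑(s59feSmin W hΔ p) : Set ℕ) →
      ∀ (a : integralClosure ℤ ℂ) (n : ℤ), (a : ℂ) = ModularFormClass.qCoeff f ℓ →
        a - (n : integralClosure ℤ ℂ) ∈ 𝔪 → residue 𝒪 (ψ ℓ) = (n : ResidueField 𝒪))
    (_ : ∀ ℓ : ℕ, ℓ.Prime → ℓ ∉ s59feSmin W hΔ p → ¬ ℓ ∣ N0 →
      ∀ P : ValuationSubring (AlgebraicClosure ℚ), P.LiesOverPrime ℓ →
      ∀ τ : AlgebraicClosure ℚ ≃ₐ[ℚ] AlgebraicClosure ℚ, P.IsFrobeniusAt τ ℓ →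
        residue 𝒪 (ψ ℓ) = LinearMap.trace (ResidueField 𝒪) (s59feBar W hΔ p φ hφ).V
          ((s59feBar W hΔ p φ hφ).ρ τ))
    (ϖ : 𝒪) (hϖ : Irreducible ϖ)
    (hψW : s59asmr_CongW p ψ W (s59feSmin W hΔ p ∪ N0.primeFactors))
    (ρ₀ : GaloisRepAdic 𝒪) (_ : ρ₀.DetIsCyclotomic p)
    (_ : ρ₀.residual.IsAbsolutelyIrreducible)
    (_ : ∀ ℓ : ℕ, ℓ.Prime → ℓ ∉ s59feSmin W hΔ p →
      ∀ P : ValuationSubring (AlgebraicClosure ℚ), P.LiesOverPrime ℓ →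
      ∀ φ' : AlgebraicClosure ℚ ≃ₐ[ℚ] AlgebraicClosure ℚ, P.IsFrobeniusAt φ' ℓ →
        LinearMap.trace 𝒪 ρ₀.V (ρ₀.ρ φ') = ψ ℓ)
    (s₀ : S59Stage 𝒪 (s59feBar W hΔ p φ hφ) (twOrd 𝒪 p (s59feSmin W hΔ p) ∅)),
    s59tops_inv (s59asmR2 p hp2 hp𝒪 ψ ϖ hϖ W hΔ hirr (s59feSmin W hΔ p ∪ N0.primeFactors) hψW)
      ρ₀ (s59feSmin W hΔ p) N0 ∅ s₀ →
    s₀.lPhi ≤ Module.length 𝒪 (𝒪 ⧸ s₀.etaL)

/-- **CASE (b): WHAT IS OWED, from the walls of MINLEV-B and the contract (R1-ORD)**. -/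
theorem s59stw_owed_ord
    (hfin : ∀ (N : ℕ) [NeZero N] (S : Set ℕ), Module.Finite ℤ (CuspForm.heckeAlgebra N 2 S))
    (hS29 : s59tres_StmtS29) (hM1 : s59lsq_StmtWall) (hQ : s59stm_StmtLowQOrd)
    (hraise : LowQ.s59lq_StmtRaise) (hR1 : s59stw_StmtR1) :
    s59topo_StmtOwedOrd s59staCond := by
  intro p _ hp W hΔ hW hirr hc M₀ _ hres hM₀ hM₀3
  classical
  have hpp : p.Prime := Fact.out
  have hp2 : p ≠ 2 := by rcases hp with rfl | rfl <;> decide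
  have hbad : (p : ℤ) ∣ W.Δ := hc.1
  -- MINLEV-B
  have hresN0 : W.IsResiduallyModularOfLevel p (s59stmN0 W hΔ p) :=
    s59stm_minlev hM1 hQ hraise p hp W hΔ hW hirr hbad M₀
      (Nat.pos_of_ne_zero (NeZero.ne M₀)) hres hM₀ hM₀3
  haveI : NeZero (s59stmN0 W hΔ p) := ⟨s59stm_N0_ne_zero W hΔ p⟩
  have hN0 := s59stm_N0_dvd_iff W hΔ p
  have hN0sq := s59stm_N0_squarefree W hΔ p
  obtain ⟨f, 𝔪, hf, h𝔪, hp𝔪, hcong⟩ := hresN0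
  -- E-BIG
  obtain ⟨𝒪, i1, i2, i3, i4, i5, i6, φ, hφ, hinj, hp𝒪, hK, hBig, hBigS, hBig0, hBigS0⟩ :=
    s59tbig_exists_strong p hfin (s59stmN0 W hΔ p) (s59feSmin W hΔ p) (s59feSigma W hΔ p)
      (fun q hq => (s59fe_prime_of_mem_Sigma W hΔ p hq).ne_zero)
  -- BASE-EIG
  have hNS : ∀ q : ℕ, q.Prime → q ∣ s59stmN0 W hΔ p →
      q ∈ (↑(s59feSmin W hΔ p) : Set ℕ) :=
    fun q hq hd => Finset.mem_coe.2 ((hN0 q hq).1 hd)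
  obtain ⟨χ₀, ψ, hχ₀, hψ0⟩ := s59teig_exists_psi p hp𝒪 (s59stmN0 W hΔ p)
    (↑(s59feSmin W hΔ p) : Set ℕ) hNS hBigS0 f hf 𝔪 h𝔪 hp𝔪
  -- TWHyp
  have hTW : TWHyp 𝒪 p (s59feBar W hΔ p φ hφ) (s59feSmin W hΔ p ∪ s59feSigma W hΔ p)
      (s59feSmin W hΔ p) := s59fe_twHyp_union W hΔ p φ hφ hp hK hW hirr
  -- S33-STRICT
  have hstrict : s59topo_StmtStrict 𝒪 p (s59feBar W hΔ p φ hφ) :=
    s59sta_strict W hΔ p φ hφ hW hp hc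
  -- HGD-RES
  have hψ := s59tres_hψ_of_eig_Smin W hΔ p φ hφ hS29 (s59feSmin W hΔ p) hTW.hpSmin
    (s59stmN0 W hΔ p) (NeZero.ne _) f hf 𝔪 h𝔪 hp𝔪 hcong ψ
    (fun ℓ hℓ hℓN hℓS a n ha hn =>
      hψ0 ℓ hℓ hℓN (fun h => hℓS (Finset.mem_coe.1 h)) a n ha hn)
  -- CAR
  obtain ⟨ρ₀, habs₀, hdet₀, htr₀, -, hcar⟩ := s59tcar_exists p hp2 hp𝒪
    (s59feBar W hΔ p φ hφ) hTW.habs (s59feSmin W hΔ p) hTW.hpSmin (s59stmN0 W hΔ p)
    (fun ℓ hℓ hd => (hN0 ℓ hℓ).1 hd) ψ χ₀ hχ₀ (s59topg_hdet hTW) hψ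
  -- R2
  obtain ⟨ϖ, hϖ⟩ := IsDiscreteValuationRing.exists_irreducible 𝒪
  have hψW : s59asmr_CongW p ψ W (s59feSmin W hΔ p ∪ (s59stmN0 W hΔ p).primeFactors) :=
    s59asmR2_congW p W (s59feSmin W hΔ p) (s59stmN0 W hΔ p) (NeZero.ne _) f 𝔪 hcong ψ
      (fun ℓ hℓ hℓN hℓS a n ha hn =>
        hψ0 ℓ hℓ hℓN (fun h => hℓS (Finset.mem_coe.1 h)) a n ha hn)
  refine ⟨𝒪, i1, i2, i3, i4, i5, i6, φ, hφ, s59stmN0 W hΔ p, ψ,
    s59asmR2 p hp2 hp𝒪 ψ ϖ hϖ W hΔ hirr _ hψW, ρ₀, hK, hN0, hN0sq, hstrict,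
    s59dcfin_hD_ord W hΔ p φ hφ hp hK hW hirr hbad, hψ, hcar, ?_, ?_, ?_⟩
  · intro Q hQ N _ hN θ
    exact hBig Q hQ N hN θ
  · refine s59asmR2_base p hp2 hp𝒪 ψ ϖ hϖ W hΔ hirr _ hψW (s59stmN0 W hΔ p) _ hNS ?_ χ₀ hχ₀
    intro ℓ hℓ hmem
    exact Or.inr ((hN0 ℓ hℓ).2 (Finset.mem_coe.1 hmem))
  · intro s₀ hs₀
    exact hR1 p hp hp2 W hΔ hW hirr hc (s59stmN0 W hΔ p) hN0 hN0sq f 𝔪 hf h𝔪 hp𝔪 hcong
      𝒪 φ hφ hinj hp𝒪 hK hstrict hBigS0 ψ χ₀ hχ₀ hψ0 hψ ϖ hϖ hψW ρ₀ hdet₀ habs₀ htr₀ s₀ hs₀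

/-- **DEF-COND for `twOrd` in the case (b)** : PROVED (helper63's `s59dcfin_exists_ord`,
`s59dcb_ord`). -/
theorem s59stw_defCond : s59sta_StmtDefCond := by
  intro p _ hp W hΔ hW hirr hc 𝒪 _ _ _ _ _ _ φ hφ hTW Q hQ
  exact s59dcfin_exists_ord p _ _ _ hTW (s59feSigma W hΔ p)
    (s59dcb_ord W hΔ p φ hφ s59dcc_stmtCondOrd hW hp hc.1) Q
    (fun q hq => s59fe_prime_of_mem_Sigma W hΔ p (hQ hq))

/-- **(STAGES) at the case (b)**, from the walls M1, LOWQ-ORD and the contract (R1-ORD). -/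
theorem s59stw_stages
    (hfin : ∀ (N : ℕ) [NeZero N] (S : Set ℕ), Module.Finite ℤ (CuspForm.heckeAlgebra N 2 S))
    (hS29 : s59tres_StmtS29) (hM1 : s59lsq_StmtWall) (hQ : s59stm_StmtLowQOrd)
    (hraise : LowQ.s59lq_StmtRaise) (hR1 : s59stw_StmtR1) :
    s59topw_StmtStagesAt s59staCond :=
  s59topo_stages_ord s59staCond (fun _ _ h => h.1)
    (s59stw_owed_ord hfin hS29 hM1 hQ hraise hR1)

/-- **S59 from the three cases**: frozen S59 from S58 ✓, the case (a) (`s59topb_StmtOwedGood'`),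
the walls of the case (b) and (STAGES) at the case (c). -/
theorem s59stw_result (h58 : s59p_StmtS58)
    (hfin : ∀ (N : ℕ) [NeZero N] (S : Set ℕ), Module.Finite ℤ (CuspForm.heckeAlgebra N 2 S))
    (hS29 : s59tres_StmtS29) (ha : s59topb_StmtOwedGood')
    (hM1 : s59lsq_StmtWall) (hQ : s59stm_StmtLowQOrd) (hraise : LowQ.s59lq_StmtRaise)
    (hR1 : s59stw_StmtR1) (hc : s59topw_StmtStagesAt s59staCondC)
    (p : ℕ) (hp : p = 3 ∨ p = 5)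
    (W : WeierstrassCurve ℤ) (hΔ : W.Δ ≠ 0) (hW : W.IsSemistableModel)
    (hirr : W.ModRepIsIrreducible p)
    (M₀ : ℕ) [NeZero M₀] (hres₀ : W.IsResiduallyModularOfLevel p M₀)
    (hM₀ : ¬ p ^ 2 ∣ M₀)
    (hM₀3 : ∀ q : ℕ, q.Prime → q ≠ p → ¬ q ^ 3 ∣ M₀) :
    Mlc1IsModularModelOfExactConductorLevel W :=
  s59topb_result h58 ha
    (s59sta_stages_bad (s59stw_stages hfin hS29 hM1 hQ hraise hR1) hc)
    p hp W hΔ hW hirr M₀ hres₀ hM₀ hM₀3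

end Fermat.Agent.S59

end
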