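/-
S59 — helper43: **THE THREE CASES TOGETHER, FROM THE OPEN WALLS ONLY**.

`s59stx_result` : frozen S59 from S58 ✓, S22 ✓, S29 ✓ and

* (shared) M1 `s59lsq_StmtWall`, LOWQ `s59topm_StmtLowQ`, RAISE `LowQ.s59lq_StmtRaise`;
* case (a) (`W` good at `p`)                : LOWP-GOOD `s59topm_StmtLowPGood`, R1 `s59towd_StmtR1`;
* case (b) (multiplicative, not peu ramifié) : LOWQ-ORD `s59stm_StmtLowQOrd`, R1-ORD `s59stw_StmtR1`;
* case (c) (multiplicative, peu ramifié)     : R1-C `s59pste_StmtR1C s59staCondC`.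

`s59stx_result_leaves` : the same with RAISE ✓, LOWP-GOOD ✓ plugged in and LOWQ, LOWQ-ORD replaced
by the leaves of the LowQ machine (`Strict/LowQGlue.lean`): frozen S59 from S58 ✓, S22 ✓, S29 ✓ and
the SIX open walls

  M1 `s59lsq_StmtWall`,  MP `s59lq_StmtMPOn (p' = p)` and TR `s59lq_StmtTR p` at `p = 3, 5`,
  R1 `s59towd_StmtR1`,  R1-ORD `s59stw_StmtR1`,  R1-C `s59pste_StmtR1C s59staCondC`.

Everything else (E-BIG, BASE-EIG, HGD-RES, CAR, R2-INST, E-BASE, DEF-COND for `twFlat` and `twOrd`,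
S33-STRICT, LG-P, MINLEV-C, LOWP-GOOD, RAISE) is plugged in.
-/
import Fermat.Agent.S59.Strict.OwedOrd
import Fermat.Agent.S59.Strict.LowQGlue
import Fermat.Agent.S59.TopOwed
import Fermat.Agent.S59.PStep.TopC2
import Fermat.Agent.S59.LowP.WallTop
import Fermat.Agent.S59.LowQ.Glue

set_option autoImplicit false
set_option linter.style.haveILetI false
set_option linter.unusedSectionVars false
set_option linter.unusedVariables false
set_option linter.style.longLine false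

noncomputable section

namespace Fermat.Agent.S59

open IsLocalRing Polynomial

/-- **(STAGES) at every bad prime**, from the open walls of the cases (b) and (c). -/
theorem s59stx_stages_bad
    (hfin : ∀ (N : ℕ) [NeZero N] (S : Set ℕ), Module.Finite ℤ (CuspForm.heckeAlgebra N 2 S))
    (hS29 : s59tres_StmtS29) (hM1 : s59lsq_StmtWall) (hQ : s59topm_StmtLowQ)
    (hraise : LowQ.s59lq_StmtRaise)
    (hQord : s59stm_StmtLowQOrd) (hR1ord : s59stw_StmtR1)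
    (hR1C : s59pste_StmtR1C s59staCondC) :
    s59topw_StmtStagesAt fun W p => ¬ W.IsGoodPrimeFor p :=
  s59sta_stages_bad (s59stw_stages hfin hS29 hM1 hQord hraise hR1ord)
    (s59pstg_stages_c hS29 hfin hM1 hQ hR1C)

/-- **Frozen S59 from S58 ✓, S22 ✓, S29 ✓ and the walls of the three cases.** -/
theorem s59stx_result (h58 : s59p_StmtS58)
    (hfin : ∀ (N : ℕ) [NeZero N] (S : Set ℕ), Module.Finite ℤ (CuspForm.heckeAlgebra N 2 S))
    (hS29 : s59tres_StmtS29) (hM1 : s59lsq_StmtWall) (hQ : s59topm_StmtLowQ)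
    (hP : s59topm_StmtLowPGood) (hraise : LowQ.s59lq_StmtRaise) (hR1 : s59towd_StmtR1)
    (hQord : s59stm_StmtLowQOrd) (hR1ord : s59stw_StmtR1)
    (hR1C : s59pste_StmtR1C s59staCondC)
    (p : ℕ) (hp : p = 3 ∨ p = 5)
    (W : WeierstrassCurve ℤ) (hΔ : W.Δ ≠ 0) (hW : W.IsSemistableModel)
    (hirr : W.ModRepIsIrreducible p)
    (M₀ : ℕ) [NeZero M₀] (hres₀ : W.IsResiduallyModularOfLevel p M₀)
    (hM₀ : ¬ p ^ 2 ∣ M₀)
    (hM₀3 : ∀ q : ℕ, q.Prime → q ≠ p → ¬ q ^ 3 ∣ M₀) :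
    Mlc1IsModularModelOfExactConductorLevel W :=
  s59topb_result h58 (s59towd_owed_good hfin hS29 hM1 hQ hP hraise hR1)
    (s59stx_stages_bad hfin hS29 hM1 hQ hraise hQord hR1ord hR1C)
    p hp W hΔ hW hirr M₀ hres₀ hM₀ hM₀3

/-- **Frozen S59 from S58 ✓, S22 ✓, S29 ✓ and the SIX open walls**
M1, MP, TR (at `p = 3, 5`), R1, R1-ORD, R1-C. -/
theorem s59stx_result_leaves (h58 : s59p_StmtS58)
    (hfin : ∀ (N : ℕ) [NeZero N] (S : Set ℕ), Module.Finite ℤ (CuspForm.heckeAlgebra N 2 S))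
    (hS29 : s59tres_StmtS29) (hM1 : s59lsq_StmtWall)
    (hMP : ∀ p : ℕ, (p = 3 ∨ p = 5) → LowQ.s59lq_StmtMPOn (fun p' _ _ => p' = p))
    (hTR : ∀ p : ℕ, (p = 3 ∨ p = 5) → LowQ.s59lq_StmtTR p)
    (hR1 : s59towd_StmtR1) (hR1ord : s59stw_StmtR1)
    (hR1C : s59pste_StmtR1C s59staCondC)
    (p : ℕ) (hp : p = 3 ∨ p = 5)
    (W : WeierstrassCurve ℤ) (hΔ : W.Δ ≠ 0) (hW : W.IsSemistableModel)
    (hirr : W.ModRepIsIrreducible p)
    (M₀ : ℕ) [NeZero M₀] (hres₀ : W.IsResiduallyModularOfLevel p M₀)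
    (hM₀ : ¬ p ^ 2 ∣ M₀)
    (hM₀3 : ∀ q : ℕ, q.Prime → q ≠ p → ¬ q ^ 3 ∣ M₀) :
    Mlc1IsModularModelOfExactConductorLevel W :=
  s59stx_result h58 hfin hS29 hM1
    (s59stq_both_of_leaves hMP hTR LowQ.s59lq_stmtRaise).1 s59lpwt_lowPGood
    LowQ.s59lq_stmtRaise hR1
    (s59stq_both_of_leaves hMP hTR LowQ.s59lq_stmtRaise).2 hR1ord hR1C
    p hp W hΔ hW hirr M₀ hres₀ hM₀ hM₀3

/-- the same from the frozen type of S38 at `p = 3` and `p = 5` instead of the leaves MP, TR. -/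
theorem s59stx_result_wall (h58 : s59p_StmtS58)
    (hfin : ∀ (N : ℕ) [NeZero N] (S : Set ℕ), Module.Finite ℤ (CuspForm.heckeAlgebra N 2 S))
    (hS29 : s59tres_StmtS29) (hM1 : s59lsq_StmtWall)
    (hwall : ∀ p : ℕ, (p = 3 ∨ p = 5) → LowQ.s59lq_Wall p)
    (hR1 : s59towd_StmtR1) (hR1ord : s59stw_StmtR1)
    (hR1C : s59pste_StmtR1C s59staCondC)
    (p : ℕ) (hp : p = 3 ∨ p = 5)
    (W : WeierstrassCurve ℤ) (hΔ : W.Δ ≠ 0) (hW : W.IsSemistableModel)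
    (hirr : W.ModRepIsIrreducible p)
    (M₀ : ℕ) [NeZero M₀] (hres₀ : W.IsResiduallyModularOfLevel p M₀)
    (hM₀ : ¬ p ^ 2 ∣ M₀)
    (hM₀3 : ∀ q : ℕ, q.Prime → q ≠ p → ¬ q ^ 3 ∣ M₀) :
    Mlc1IsModularModelOfExactConductorLevel W :=
  s59stx_result h58 hfin hS29 hM1
    (s59stq_both_of_wall hwall).1 s59lpwt_lowPGood LowQ.s59lq_stmtRaise hR1
    (s59stq_both_of_wall hwall).2 hR1ord hR1C
    p hp W hΔ hW hirr M₀ hres₀ hM₀ hM₀3

end Fermat.Agent.S59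

end
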