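/-
S59, R1-ORD / K7-ORD (helper43), step 1: **ORDINARY BY POINTS** (pure algebra).

`s59sto_ord_of_points` : `A` a local ring, `p` odd, `ρ : G_ℚ → GL₂(A)` with `det = χ`,
`x i : A → B i` a SEPARATING family of local homomorphisms (e.g. the points of a reduced `𝒪`-flat
Hecke ring).  If every `ρ ⊗_{x i} B i` is ordinary at `p`, then `ρ` is ordinary at `p`.

Proof.  `σ₁ ∈ I_P` inverting `μ_p` (`S33.exists_inertia_inv_root`), `f₁ = ρ σ₁`, `c = det f₁`,
`c ≡ −1 mod 𝔪`, so `c − 1` is a unit.  At every point (ordinary basis `(x β; 0 1)`):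
  (I0) `tr f₁ = c + 1`,   (I1) `(f₁ − c) ρ(g) (f₁ − 1) = 0` (`g ∈ D_P`),
  (I2) `(f₁ − c)(ρ(σ) − 1) = 0` (`σ ∈ I_P`);
so they hold over `A`.  `E = (f₁ − 1)/(c − 1)` is an idempotent of trace `1`; an explicit basis
`b₀ ∈ E V`, `b₁ ∈ (1 − E) V` diagonalises `f₁ = diag(c, 1)`, and (I1), (I2) say that `L = A b₀` is
`D_P`-stable with `I_P` acting trivially on `V ⧸ L`.
-/
import Fermat.Agent.S59.Strict.Core
import Fermat.Agent.S33.DetCyclo

set_option autoImplicit false
set_option linter.unusedSectionVars false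
set_option linter.unusedVariables false
set_option linter.style.longLine false
set_option linter.style.haveILetI false

noncomputable section

namespace Fermat.Agent.S59

open IsLocalRing Fermat.Agent.PT.B Fermat.Agent.S53
open scoped Pointwise TensorProduct

/-- `ℚ̄` -/
local notation "Qbar" => AlgebraicClosure ℚ

/-! ### At an ordinary representation -/

section Point

variable {A : Type} [CommRing A] [IsLocalRing A] (ρ : GaloisRepAdic A)
  (b : Module.Basis (Fin 2) A ρ.V) (P : ValuationSubring Qbar)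
  (hD : ∀ σ ∈ P.decompositionSubgroup ℚ, ∀ v ∈ (A ∙ b 0 : Submodule A ρ.V),
    ρ.ρ σ v ∈ (A ∙ b 0 : Submodule A ρ.V))
  (hI : ∀ σ ∈ P.inertiaSubgroupIn ℚ, ∀ v : ρ.V, ρ.ρ σ v - v ∈ (A ∙ b 0 : Submodule A ρ.V))

include hD hI

/-- inertia acts on the line through the determinant -/
theorem s59sto_apply_line {σ : S59G} (hσ : σ ∈ P.inertiaSubgroupIn ℚ)
    {w : ρ.V} (hw : w ∈ (A ∙ b 0 : Submodule A ρ.V)) :
    ρ.ρ σ w = LinearMap.det (ρ.ρ σ) • w := by
  have h10 := s59st_entry10 ρ b (hD σ (s59st_inertia_le_decomp P hσ))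
  have h11 := s59st_entry11 ρ b (hI σ hσ)
  obtain ⟨a, rfl⟩ := Submodule.mem_span_singleton.1 hw
  rw [map_smul, smul_comm, s59st_det_eq ρ b h10 h11]
  congr 1
  apply b.repr.injective
  ext i
  rw [s59st_repr_apply, map_smul, Module.Basis.repr_self]
  fin_cases i
  · simp
  · simp [h10]

/-- (I0) at an ordinary representation -/
theorem s59sto_pt_trace {σ : S59G} (hσ : σ ∈ P.inertiaSubgroupIn ℚ) :
    LinearMap.trace A ρ.V (ρ.ρ σ) = LinearMap.det (ρ.ρ σ) + 1 := by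
  have h10 := s59st_entry10 ρ b (hD σ (s59st_inertia_le_decomp P hσ))
  have h11 := s59st_entry11 ρ b (hI σ hσ)
  rw [s59st_det_eq ρ b h10 h11, ← s59sellt_trace ρ b σ, Matrix.trace_fin_two, h11]

/-- (I2) at an ordinary representation -/
theorem s59sto_pt_inertia {σ₁ σ : S59G} (hσ₁ : σ₁ ∈ P.inertiaSubgroupIn ℚ)
    (hσ : σ ∈ P.inertiaSubgroupIn ℚ) :
    (ρ.ρ σ₁ - LinearMap.det (ρ.ρ σ₁) • 1) * (ρ.ρ σ - 1) = 0 := by
  refine LinearMap.ext fun v => ?_
  have h1 : (ρ.ρ σ - 1) v ∈ (A ∙ b 0 : Submodule A ρ.V) := hI σ hσ v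
  have h2 := s59sto_apply_line ρ b P hD hI hσ₁ h1
  show (ρ.ρ σ₁ - LinearMap.det (ρ.ρ σ₁) • 1) ((ρ.ρ σ - 1) v) = 0
  rw [LinearMap.sub_apply, h2, LinearMap.smul_apply, Module.End.one_apply, sub_self]

/-- (I1) at an ordinary representation -/
theorem s59sto_pt_decomp {σ₁ g : S59G} (hσ₁ : σ₁ ∈ P.inertiaSubgroupIn ℚ)
    (hg : g ∈ P.decompositionSubgroup ℚ) :
    (ρ.ρ σ₁ - LinearMap.det (ρ.ρ σ₁) • 1) * ρ.ρ g * (ρ.ρ σ₁ - 1) = 0 := by
  refine LinearMap.ext fun v => ?_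
  have h1 : (ρ.ρ σ₁ - 1) v ∈ (A ∙ b 0 : Submodule A ρ.V) := hI σ₁ hσ₁ v
  have h2 := hD g hg _ h1
  have h3 := s59sto_apply_line ρ b P hD hI hσ₁ h2
  show (ρ.ρ σ₁ - LinearMap.det (ρ.ρ σ₁) • 1) (ρ.ρ g ((ρ.ρ σ₁ - 1) v)) = 0
  rw [LinearMap.sub_apply, h3, LinearMap.smul_apply, Module.End.one_apply, sub_self]

end Point

/-! ### Base change of endomorphisms along `φ` -/

section BC

variable {A B : Type} [CommRing A] [CommRing B] [IsLocalRing A] [IsLocalRing B]
  (φ : A →+* B) (hφ : IsLocalHom φ) (ρ : GaloisRepAdic A)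

/-- the base change of an endomorphism of `ρ.V` to `(ρ ⊗_φ B).V` -/
def s59stoBC (Φ : Module.End A ρ.V) : Module.End B (ρ.baseChangeAlong φ hφ).V :=
  letI : Algebra A B := φ.toAlgebra
  Φ.baseChange B

theorem s59stoBC_rho (σ : S59G) : s59stoBC φ hφ ρ (ρ.ρ σ) = (ρ.baseChangeAlong φ hφ).ρ σ := rfl

theorem s59stoBC_one : s59stoBC φ hφ ρ 1 = 1 := by
  letI : Algebra A B := φ.toAlgebra
  exact LinearMap.baseChange_one (R := A) (A := B) (M := ρ.V)

theorem s59stoBC_mul (Φ Ψ : Module.End A ρ.V) :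
    s59stoBC φ hφ ρ (Φ * Ψ) = s59stoBC φ hφ ρ Φ * s59stoBC φ hφ ρ Ψ := by
  letI : Algebra A B := φ.toAlgebra
  exact LinearMap.baseChange_mul Φ Ψ

theorem s59stoBC_sub (Φ Ψ : Module.End A ρ.V) :
    s59stoBC φ hφ ρ (Φ - Ψ) = s59stoBC φ hφ ρ Φ - s59stoBC φ hφ ρ Ψ := by
  letI : Algebra A B := φ.toAlgebra
  exact LinearMap.baseChange_sub Φ Ψ

theorem s59stoBC_smul (a : A) (Φ : Module.End A ρ.V) :
    s59stoBC φ hφ ρ (a • Φ) = φ a • s59stoBC φ hφ ρ Φ := by
  letI : Algebra A B := φ.toAlgebra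
  show (a • Φ).baseChange B = (algebraMap A B a) • Φ.baseChange B
  rw [LinearMap.baseChange_smul, algebraMap_smul]

theorem s59stoBC_det (Φ : Module.End A ρ.V) :
    LinearMap.det (s59stoBC φ hφ ρ Φ) = φ (LinearMap.det Φ) := by
  letI : Algebra A B := φ.toAlgebra
  exact LinearMap.det_baseChange (A := B) (f := Φ)

theorem s59stoBC_trace (Φ : Module.End A ρ.V) :
    LinearMap.trace B (ρ.baseChangeAlong φ hφ).V (s59stoBC φ hφ ρ Φ) =
      φ (LinearMap.trace A ρ.V Φ) := by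
  letI : Algebra A B := φ.toAlgebra
  exact LinearMap.trace_baseChange Φ B

/-- the entries of an endomorphism with vanishing base change are killed by `φ` -/
theorem s59stoBC_entry (b₀ : Module.Basis (Fin 2) A ρ.V) (Φ : Module.End A ρ.V)
    (h : s59stoBC φ hφ ρ Φ = 0) (j k : Fin 2) : φ (LinearMap.toMatrix b₀ b₀ Φ j k) = 0 := by
  letI : Algebra A B := φ.toAlgebra
  have h' : Φ.baseChange B = 0 := h
  have h1 := LinearMap.toMatrix_baseChange (A := B) Φ b₀ b₀
  rw [h', map_zero] at h1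
  have h2 := congrFun (congrFun h1 j) k
  rw [Matrix.zero_apply, Matrix.map_apply] at h2
  exact h2.symm

end BC

/-! ### The basis of an idempotent of trace `1` -/

section Idem

variable {A : Type} [CommRing A] {V : Type} [AddCommGroup V] [Module A V]

theorem s59sto_basis_of_idem (b₀ : Module.Basis (Fin 2) A V) (E : Module.End A V)
    (hE : E * E = E) (htr : LinearMap.trace A V E = 1)
    (hu : IsUnit (LinearMap.toMatrix b₀ b₀ E 0 0)) :
    ∃ b : Module.Basis (Fin 2) A V, E (b 0) = b 0 ∧ E (b 1) = 0 := by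
  set m := LinearMap.toMatrix b₀ b₀ E with hm
  have hmm : m * m = m := by rw [hm, ← LinearMap.toMatrix_mul, hE]
  have h00 : m 0 0 * m 0 0 + m 0 1 * m 1 0 = m 0 0 := by
    have := congrFun (congrFun hmm 0) 0
    rwa [Matrix.mul_apply, Fin.sum_univ_two] at this
  have ht : m 0 0 + m 1 1 = 1 := by
    rw [← htr, LinearMap.trace_eq_matrix_trace A b₀ E, Matrix.trace_fin_two]
  have hEE : ∀ v : V, E (E v) = E v := fun v => by rw [← Module.End.mul_apply, hE]
  have hent : ∀ i j : Fin 2, b₀.repr (E (b₀ j)) i = m i j := fun i j =>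
    (LinearMap.toMatrix_apply b₀ b₀ E i j).symm
  let v : Fin 2 → V := ![E (b₀ 0), b₀ 1 - E (b₀ 1)]
  have hv0 : v 0 = E (b₀ 0) := rfl
  have hv1 : v 1 = b₀ 1 - E (b₀ 1) := rfl
  have hdet : b₀.det v = m 0 0 := by
    rw [Module.Basis.det_apply, Matrix.det_fin_two]
    simp only [Module.Basis.toMatrix_apply, hv0, hv1, map_sub, Finsupp.sub_apply, hent,
      Module.Basis.repr_self]
    simp
    linear_combination h00 - m 0 0 * ht
  obtain ⟨hli, hsp⟩ := (Module.Basis.is_basis_iff_det b₀).2 (hdet ▸ hu)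
  refine ⟨Module.Basis.mk hli hsp.ge, ?_, ?_⟩
  · rw [Module.Basis.mk_apply, hv0, hEE]
  · rw [Module.Basis.mk_apply, hv1, map_sub, hEE, sub_self]

theorem s59sto_exists_basis [IsLocalRing A] (b₀ : Module.Basis (Fin 2) A V)
    (E : Module.End A V) (hE : E * E = E) (htr : LinearMap.trace A V E = 1) :
    ∃ b : Module.Basis (Fin 2) A V, E (b 0) = b 0 ∧ E (b 1) = 0 := by
  have ht : LinearMap.toMatrix b₀ b₀ E 0 0 + LinearMap.toMatrix b₀ b₀ E 1 1 = 1 := by
    rw [← htr, LinearMap.trace_eq_matrix_trace A b₀ E, Matrix.trace_fin_two]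
  rcases IsLocalRing.isUnit_or_isUnit_of_add_one ht with h | h
  · exact s59sto_basis_of_idem b₀ E hE htr h
  · refine s59sto_basis_of_idem (b₀.reindex (Equiv.swap 0 1)) E hE htr ?_
    have e : LinearMap.toMatrix (b₀.reindex (Equiv.swap 0 1)) (b₀.reindex (Equiv.swap 0 1)) E 0 0 =
        LinearMap.toMatrix b₀ b₀ E 1 1 := by
      rw [LinearMap.toMatrix_apply, LinearMap.toMatrix_apply, Module.Basis.reindex_apply,
        Module.Basis.repr_reindex_apply]
      simp
    rw [e]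
    exact h

theorem s59sto_mem_line_iff_idem (b : Module.Basis (Fin 2) A V) (E : Module.End A V)
    (h0 : E (b 0) = b 0) (h1 : E (b 1) = 0) (v : V) :
    v ∈ (A ∙ b 0 : Submodule A V) ↔ E v = v := by
  constructor
  · intro h
    obtain ⟨a, rfl⟩ := Submodule.mem_span_singleton.1 h
    rw [map_smul, h0]
  · intro h
    have e := b.sum_repr v
    rw [Fin.sum_univ_two] at e
    have e2 : E v = b.repr v 0 • b 0 := by
      conv_lhs => rw [← e]
      rw [map_add, map_smul, map_smul, h0, h1, smul_zero, add_zero]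
    rw [← h, e2]
    exact Submodule.smul_mem _ _ (Submodule.mem_span_singleton_self _)

/-- Cayley–Hamilton in rank `2` -/
theorem s59sto_cayley (b₀ : Module.Basis (Fin 2) A V) (f : Module.End A V) :
    f * f = LinearMap.trace A V f • f - LinearMap.det f • (1 : Module.End A V) := by
  apply (LinearMap.toMatrix b₀ b₀).injective
  rw [LinearMap.toMatrix_mul, map_sub, map_smul, map_smul, LinearMap.toMatrix_one,
    LinearMap.trace_eq_matrix_trace A b₀ f, ← LinearMap.det_toMatrix b₀ f]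
  set M := LinearMap.toMatrix b₀ b₀ f
  ext i j
  fin_cases i <;> fin_cases j <;>
    simp [Matrix.mul_apply, Fin.sum_univ_two, Matrix.det_fin_two, Matrix.trace_fin_two] <;> ring

end Idem

/-! ### The theorem -/

section Main

variable {A : Type} [CommRing A] [IsLocalRing A]

/-- `det ρ(σ) − 1` is a unit when `σ` inverts `μ_p` (`p` odd, `det = χ`) -/
theorem s59sto_isUnit_det_sub_one {p : ℕ} (hp : p.Prime) (hp2 : p ≠ 2) (ρ : GaloisRepAdic A)
    (hdet : ρ.DetIsCyclotomic p) {σ : S59G}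
    (hinv : ∀ μ : Qbar, μ ^ p = 1 → σ μ = μ⁻¹) : IsUnit (LinearMap.det (ρ.ρ σ) - 1) := by
  obtain ⟨hpA, hcyc⟩ := hdet
  have hpos : 0 < p := hp.pos
  have h2 := hcyc 1 σ (p - 1) (fun μ hμ => by
    rw [pow_one] at hμ
    rw [hinv μ hμ]
    apply inv_eq_of_mul_eq_one_right
    rw [← pow_succ', Nat.sub_add_cancel hpos, hμ])
  have h3 : LinearMap.det (ρ.ρ σ) + 1 ∈ IsLocalRing.maximalIdeal A := by
    have h4 : LinearMap.det (ρ.ρ σ) - ((p - 1 : ℕ) : A) ∈ IsLocalRing.maximalIdeal A := by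
      refine (Ideal.span_le.mpr ?_) h2
      intro x hx
      rw [Set.mem_singleton_iff] at hx
      rw [hx, pow_one]
      exact hpA
    have e : LinearMap.det (ρ.ρ σ) + 1 =
        (LinearMap.det (ρ.ρ σ) - ((p - 1 : ℕ) : A)) + (p : A) := by
      rw [Nat.cast_sub hpos, Nat.cast_one]; ring
    rw [e]
    exact Ideal.add_mem _ h4 hpA
  by_contra hnu
  have h6 : LinearMap.det (ρ.ρ σ) - 1 ∈ IsLocalRing.maximalIdeal A :=
    (IsLocalRing.mem_maximalIdeal _).2 hnu
  have h7 : (2 : A) ∈ IsLocalRing.maximalIdeal A := by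
    have e : (2 : A) = (LinearMap.det (ρ.ρ σ) + 1) - (LinearMap.det (ρ.ρ σ) - 1) := by ring
    rw [e]
    exact Ideal.sub_mem _ h3 h6
  have hcop : Nat.Coprime 2 p := (Nat.coprime_primes Nat.prime_two hp).mpr (Ne.symm hp2)
  obtain ⟨u, v, huv⟩ := Nat.Coprime.isCoprime hcop
  have h8 : (1 : A) = (u : A) * 2 + (v : A) * (p : A) := by
    have := congrArg (fun z : ℤ => (z : A)) huv
    simpa using this.symm
  have h9 : (1 : A) ∈ IsLocalRing.maximalIdeal A := by
    rw [h8]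
    exact Ideal.add_mem _ (Ideal.mul_mem_left _ _ h7) (Ideal.mul_mem_left _ _ hpA)
  exact (Ideal.ne_top_iff_one _).mp (Ideal.IsMaximal.ne_top inferInstance) h9

/-- **ORDINARY BY POINTS.**  A representation with cyclotomic determinant (`p` odd) all of whose
specialisations along a separating family of local homomorphisms are ordinary at `p` is ordinary
at `p`. -/
theorem s59sto_ord_of_points {p : ℕ} (hp : p.Prime) (hp2 : p ≠ 2)
    (ρ : GaloisRepAdic A) (hdet : ρ.DetIsCyclotomic p)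
    {ι : Type} (B : ι → Type) [∀ i, CommRing (B i)] [∀ i, IsLocalRing (B i)]
    (x : ∀ i, A →+* B i) (hx : ∀ i, IsLocalHom (x i))
    (hsep : ∀ a : A, (∀ i, x i a = 0) → a = 0)
    (hord : ∀ i, (ρ.baseChangeAlong (x i) (hx i)).IsOrdinaryAt p) : ρ.IsOrdinaryAt p := by
  intro P hP
  obtain ⟨σ₁, hσ₁, hinv⟩ := Fermat.Agent.S33.exists_inertia_inv_root hp P hP
  have hcu := s59sto_isUnit_det_sub_one hp hp2 ρ hdet hinv
  obtain ⟨f₁, hf₁⟩ : ∃ f : Module.End A ρ.V, f = ρ.ρ σ₁ := ⟨_, rfl⟩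
  obtain ⟨c, hc⟩ : ∃ c : A, c = LinearMap.det f₁ := ⟨_, rfl⟩
  rw [← hf₁, ← hc] at hcu
  obtain ⟨u, hu⟩ : ∃ u : A, u * (c - 1) = 1 := by
    obtain ⟨w, hw⟩ := hcu.exists_left_inv
    exact ⟨w, hw⟩
  obtain ⟨b₀, -⟩ : ∃ b : Module.Basis (Fin 2) A ρ.V, b = someBasis ρ := ⟨_, rfl⟩
  -- separation
  have hsepE : ∀ Φ : Module.End A ρ.V, (∀ i, s59stoBC (x i) (hx i) ρ Φ = 0) → Φ = 0 := by
    intro Φ h
    apply (LinearMap.toMatrix b₀ b₀).injective
    rw [map_zero]
    ext j k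
    rw [Matrix.zero_apply]
    exact hsep _ fun i => s59stoBC_entry (x i) (hx i) ρ b₀ Φ (h i) j k
  have hpt : ∀ i, ∃ b : Module.Basis (Fin 2) (B i) (ρ.baseChangeAlong (x i) (hx i)).V,
      (∀ σ ∈ P.decompositionSubgroup ℚ,
        ∀ v ∈ (B i ∙ b 0 : Submodule (B i) (ρ.baseChangeAlong (x i) (hx i)).V),
          (ρ.baseChangeAlong (x i) (hx i)).ρ σ v ∈
            (B i ∙ b 0 : Submodule (B i) (ρ.baseChangeAlong (x i) (hx i)).V)) ∧
      (∀ σ ∈ P.inertiaSubgroupIn ℚ, ∀ v : (ρ.baseChangeAlong (x i) (hx i)).V,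
        (ρ.baseChangeAlong (x i) (hx i)).ρ σ v - v ∈
          (B i ∙ b 0 : Submodule (B i) (ρ.baseChangeAlong (x i) (hx i)).V)) := by
    intro i
    obtain ⟨L, ⟨b, rfl⟩, hD, hI⟩ := hord i P hP
    exact ⟨b, hD, hI⟩
  -- (I0)
  have hI0 : LinearMap.trace A ρ.V f₁ = c + 1 := by
    rw [← sub_eq_zero]
    refine hsep _ fun i => ?_
    obtain ⟨b, hD, hI⟩ := hpt i
    have h := s59sto_pt_trace (ρ.baseChangeAlong (x i) (hx i)) b P hD hI hσ₁
    rw [← s59stoBC_rho, s59stoBC_trace, s59stoBC_det, ← hf₁, ← hc] at h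
    rw [map_sub, map_add, map_one, h, sub_self]
  -- (I2)
  have hI2 : ∀ σ ∈ P.inertiaSubgroupIn ℚ, (f₁ - c • 1) * (ρ.ρ σ - 1) = 0 := by
    intro σ hσ
    refine hsepE _ fun i => ?_
    obtain ⟨b, hD, hI⟩ := hpt i
    have h := s59sto_pt_inertia (ρ.baseChangeAlong (x i) (hx i)) b P hD hI hσ₁ hσ
    rw [← s59stoBC_rho, ← s59stoBC_rho, s59stoBC_det, ← hf₁, ← hc] at h
    rw [s59stoBC_mul, s59stoBC_sub, s59stoBC_sub, s59stoBC_smul, s59stoBC_one]
    exact h
  -- (I1)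
  have hI1 : ∀ g ∈ P.decompositionSubgroup ℚ, (f₁ - c • 1) * ρ.ρ g * (f₁ - 1) = 0 := by
    intro g hg
    refine hsepE _ fun i => ?_
    obtain ⟨b, hD, hI⟩ := hpt i
    have h := s59sto_pt_decomp (ρ.baseChangeAlong (x i) (hx i)) b P hD hI hσ₁ hg
    rw [← s59stoBC_rho, ← s59stoBC_rho, s59stoBC_det, ← hf₁, ← hc] at h
    rw [s59stoBC_mul, s59stoBC_mul, s59stoBC_sub, s59stoBC_sub, s59stoBC_smul, s59stoBC_one]
    exact h
  -- Cayley–Hamilton
  have hCH : ∀ v : ρ.V, f₁ (f₁ v) = (c + 1) • f₁ v - c • v := by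
    intro v
    have h := LinearMap.congr_fun (s59sto_cayley b₀ f₁) v
    rw [hI0, ← hc] at h
    rw [Module.End.mul_apply, LinearMap.sub_apply, LinearMap.smul_apply, LinearMap.smul_apply,
      Module.End.one_apply] at h
    exact h
  -- the idempotent
  obtain ⟨E, hE⟩ : ∃ E : Module.End A ρ.V, E = u • (f₁ - 1) := ⟨_, rfl⟩
  have hEv : ∀ v : ρ.V, E v = u • (f₁ v - v) := fun v => by
    rw [hE, LinearMap.smul_apply, LinearMap.sub_apply, Module.End.one_apply]
  have hfE : ∀ v : ρ.V, f₁ (E v) = c • E v := fun v => by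
    rw [hEv, map_smul, map_sub, hCH]
    module
  have hback : ∀ v : ρ.V, f₁ v = c • v → E v = v := fun v h => by
    rw [hEv, h]
    have e : u • (c • v - v) = (u * (c - 1)) • v := by module
    rw [e, hu, one_smul]
  have hforw : ∀ v : ρ.V, E v = v → f₁ v = c • v := fun v h => by
    have h1 := hfE v
    rwa [h] at h1
  have hEE : E * E = E := LinearMap.ext fun v => by
    rw [Module.End.mul_apply]
    exact hback _ (hfE v)
  have htr : LinearMap.trace A ρ.V E = 1 := by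
    rw [hE, map_smul, map_sub, hI0, LinearMap.trace_one, ρ.finrank_eq, smul_eq_mul]
    push_cast
    linear_combination hu
  obtain ⟨b, hb0, hb1⟩ := s59sto_exists_basis b₀ E hEE htr
  have hmem := s59sto_mem_line_iff_idem b E hb0 hb1
  refine ⟨A ∙ b 0, ⟨b, rfl⟩, ?_, ?_⟩
  · intro g hg v hv
    rw [hmem] at hv ⊢
    have hfv := hforw v hv
    have h := LinearMap.congr_fun (hI1 g hg) v
    rw [Module.End.mul_apply, Module.End.mul_apply, LinearMap.sub_apply (f₁) 1 v,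
      Module.End.one_apply, LinearMap.zero_apply, hfv] at h
    have e : c • v - v = (c - 1) • v := by module
    rw [e, map_smul, map_smul] at h
    have h2 : (f₁ - c • (1 : Module.End A ρ.V)) (ρ.ρ g v) = 0 := by
      have h3 := congrArg (fun w => u • w) h
      simp only [smul_smul, hu, one_smul, smul_zero] at h3
      exact h3
    rw [LinearMap.sub_apply, LinearMap.smul_apply, Module.End.one_apply, sub_eq_zero] at h2
    exact hback _ h2
  · intro σ hσ v
    rw [hmem]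
    have h := LinearMap.congr_fun (hI2 σ hσ) v
    rw [Module.End.mul_apply, LinearMap.sub_apply (ρ.ρ σ) 1 v, Module.End.one_apply,
      LinearMap.zero_apply, LinearMap.sub_apply, LinearMap.smul_apply, Module.End.one_apply,
      sub_eq_zero] at h
    exact hback _ h

end Main

end Fermat.Agent.S59

end
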