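/-
S59, wall (b), R1-ORD / K7-ORD (helper43), step 2: **ORDINARY ⟺ THE ORDINARY IDENTITIES**.

`A` a local ring, `p` odd, `ρ : G_ℚ → GL₂(A)` with `det = χ`.  Then `ρ` is ordinary at `p` IFF for
every place `P` over `p`, all `σ₁, σ ∈ I_P`, `g ∈ D_P` (`c = det ρ(σ₁)`):
  (I2) `(ρ(σ₁) − c)(ρ(σ) − 1) = 0`,      (I1) `(ρ(σ₁) − c) ρ(g) (ρ(σ₁) − 1) = 0`.
(⇒ = `s59sto_pt_inertia`, `s59sto_pt_decomp` of OrdPts.lean; ⇐ = `s59sto_ord_of_identities`.)

USE (K7-ORD at the TW levels): the identities are EQUATIONS in the operators `ρ(σ)`, so they pass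
from a faithful Galois module (`J_H[pⁿ]_𝔪`: inertia acts through `χ` on the toric part and
trivially on the quotient) to the representation over the finite Hecke ring — no line has to be
constructed on the module.  With `s59st_strict_of_kumRel` (Strict/Core.lean) this gives `twOrd`.

* `s59sto_ord_of_identities` : (I1) ∧ (I2) ⇒ `ρ.IsOrdinaryAt p`;
* `s59sto_ord_iff_identities` : the equivalence;
* `s59sto_ord_of_injective`  : ordinarity DESCENDS along an injective local homomorphism.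
-/
import Fermat.Agent.S59.Strict.OrdPts

set_option autoImplicit false
set_option linter.unusedSectionVars false
set_option linter.unusedVariables false
set_option linter.style.longLine false
set_option linter.style.haveILetI false

noncomputable section

namespace Fermat.Agent.S59

open IsLocalRing Fermat.Agent.PT.B Fermat.Agent.S53
open scoped Pointwise TensorProduct

/-- `ℚ̄` -/
local notation "Qbar" => AlgebraicClosure ℚ

variable {A : Type} [CommRing A] [IsLocalRing A]

/-- the ordinary identities at a place `P` -/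
def S59stoId (ρ : GaloisRepAdic A) (P : ValuationSubring Qbar) : Prop :=
  (∀ σ₁ ∈ P.inertiaSubgroupIn ℚ, ∀ σ ∈ P.inertiaSubgroupIn ℚ,
    (ρ.ρ σ₁ - LinearMap.det (ρ.ρ σ₁) • 1) * (ρ.ρ σ - 1) = 0) ∧
  ∀ σ₁ ∈ P.inertiaSubgroupIn ℚ, ∀ g ∈ P.decompositionSubgroup ℚ,
    (ρ.ρ σ₁ - LinearMap.det (ρ.ρ σ₁) • 1) * ρ.ρ g * (ρ.ρ σ₁ - 1) = 0

/-- **the line of an ordinary representation from the ordinary identities**, at one place. -/
theorem s59sto_line_of_identities {p : ℕ} (hp : p.Prime) (hp2 : p ≠ 2)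
    (ρ : GaloisRepAdic A) (hdet : ρ.DetIsCyclotomic p)
    (P : ValuationSubring Qbar) (hP : P.LiesOverPrime p) (hId : S59stoId ρ P) :
    ∃ L : Submodule A ρ.V,
      (∃ b : Module.Basis (Fin 2) A ρ.V, L = A ∙ b 0) ∧
      (∀ σ ∈ P.decompositionSubgroup ℚ, ∀ v ∈ L, ρ.ρ σ v ∈ L) ∧
      (∀ σ ∈ P.inertiaSubgroupIn ℚ, ∀ v : ρ.V, ρ.ρ σ v - v ∈ L) := by
  obtain ⟨σ₁, hσ₁, hinv⟩ := Fermat.Agent.S33.exists_inertia_inv_root hp P hP
  have hcu := s59sto_isUnit_det_sub_one hp hp2 ρ hdet hinv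
  have hI2 := hId.1 σ₁ hσ₁
  have hI1 := hId.2 σ₁ hσ₁
  obtain ⟨f₁, hf₁⟩ : ∃ f : Module.End A ρ.V, f = ρ.ρ σ₁ := ⟨_, rfl⟩
  obtain ⟨c, hc⟩ : ∃ c : A, c = LinearMap.det f₁ := ⟨_, rfl⟩
  rw [← hf₁, ← hc] at hcu hI1 hI2
  obtain ⟨u, hu⟩ : ∃ u : A, u * (c - 1) = 1 := by
    obtain ⟨w, hw⟩ := hcu.exists_left_inv
    exact ⟨w, hw⟩
  obtain ⟨b₀, -⟩ : ∃ b : Module.Basis (Fin 2) A ρ.V, b = someBasis ρ := ⟨_, rfl⟩
  -- `(f₁ − c)(f₁ − 1) = 0`
  have hq : ∀ v : ρ.V, f₁ (f₁ v) = (c + 1) • f₁ v - c • v := by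
    intro v
    have h := LinearMap.congr_fun (hI2 σ₁ hσ₁) v
    rw [← hf₁, Module.End.mul_apply, LinearMap.sub_apply f₁ 1 v, Module.End.one_apply,
      LinearMap.zero_apply, LinearMap.sub_apply, LinearMap.smul_apply, Module.End.one_apply,
      map_sub, sub_eq_zero] at h
    -- h : f₁ (f₁ v) - f₁ v = c • (f₁ v - v)
    have e : f₁ (f₁ v) = (f₁ (f₁ v) - f₁ v) + f₁ v := by abel
    rw [e, h]
    module
  -- (I0) : the trace, from Cayley–Hamilton and `f₁` invertible
  have hfinv : ∀ v : ρ.V, f₁ v = 0 → v = 0 := by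
    intro v hv
    have h1 : ρ.ρ σ₁⁻¹ (ρ.ρ σ₁ v) = v := by
      rw [← Module.End.mul_apply, ← map_mul, inv_mul_cancel, map_one, Module.End.one_apply]
    rw [← h1, ← hf₁, hv, map_zero]
  have hI0 : LinearMap.trace A ρ.V f₁ = c + 1 := by
    have hCH := s59sto_cayley b₀ f₁
    rw [← hc] at hCH
    have h0 : ∀ v : ρ.V, (LinearMap.trace A ρ.V f₁ - (c + 1)) • v = 0 := by
      intro v
      have h1 := LinearMap.congr_fun hCH v
      rw [Module.End.mul_apply, LinearMap.sub_apply, LinearMap.smul_apply, LinearMap.smul_apply,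
        Module.End.one_apply, hq v] at h1
      -- h1 : (c + 1) • f₁ v - c • v = tr • f₁ v - c • v
      have h1' : (LinearMap.trace A ρ.V f₁) • f₁ v = (c + 1) • f₁ v := by
        have h3 := congrArg (fun w => w + c • v) h1
        simp only [sub_add_cancel] at h3
        exact h3.symm
      have h2 : f₁ ((LinearMap.trace A ρ.V f₁ - (c + 1)) • v) = 0 := by
        rw [map_smul, sub_smul, h1', sub_self]
      exact hfinv _ h2
    have h1 := h0 (b₀ 0)
    have h2 := congrArg (fun w => b₀.repr w 0) h1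
    simp only [map_smul, Module.Basis.repr_self, Finsupp.smul_apply, Finsupp.single_eq_same,
      smul_eq_mul, mul_one, map_zero, Finsupp.zero_apply] at h2
    exact sub_eq_zero.1 h2
  -- the idempotent
  obtain ⟨E, hE⟩ : ∃ E : Module.End A ρ.V, E = u • (f₁ - 1) := ⟨_, rfl⟩
  have hEv : ∀ v : ρ.V, E v = u • (f₁ v - v) := fun v => by
    rw [hE, LinearMap.smul_apply, LinearMap.sub_apply, Module.End.one_apply]
  have hfE : ∀ v : ρ.V, f₁ (E v) = c • E v := fun v => by
    rw [hEv, map_smul, map_sub, hq]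
    module
  have hback : ∀ v : ρ.V, f₁ v = c • v → E v = v := fun v h => by
    rw [hEv, h]
    have e : u • (c • v - v) = (u * (c - 1)) • v := by module
    rw [e, hu, one_smul]
  have hforw : ∀ v : ρ.V, E v = v → f₁ v = c • v := fun v h => by
    have h1 := hfE v
    rwa [h] at h1
  have hEE : E * E = E := LinearMap.ext fun v => by
    rw [Module.End.mul_apply]
    exact hback _ (hfE v)
  have htr : LinearMap.trace A ρ.V E = 1 := by
    rw [hE, map_smul, map_sub, hI0, LinearMap.trace_one, ρ.finrank_eq, smul_eq_mul]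
    push_cast
    linear_combination hu
  obtain ⟨b, hb0, hb1⟩ := s59sto_exists_basis b₀ E hEE htr
  have hmem := s59sto_mem_line_iff_idem b E hb0 hb1
  refine ⟨A ∙ b 0, ⟨b, rfl⟩, ?_, ?_⟩
  · intro g hg v hv
    rw [hmem] at hv ⊢
    have hfv := hforw v hv
    have h := LinearMap.congr_fun (hI1 g hg) v
    rw [Module.End.mul_apply, Module.End.mul_apply, LinearMap.sub_apply (f₁) 1 v,
      Module.End.one_apply, LinearMap.zero_apply, hfv] at h
    have e : c • v - v = (c - 1) • v := by module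
    rw [e, map_smul, map_smul] at h
    have h2 : (f₁ - c • (1 : Module.End A ρ.V)) (ρ.ρ g v) = 0 := by
      have h3 := congrArg (fun w => u • w) h
      simp only [smul_smul, hu, one_smul, smul_zero] at h3
      exact h3
    rw [LinearMap.sub_apply, LinearMap.smul_apply, Module.End.one_apply, sub_eq_zero] at h2
    exact hback _ h2
  · intro σ hσ v
    rw [hmem]
    have h := LinearMap.congr_fun (hI2 σ hσ) v
    rw [Module.End.mul_apply, LinearMap.sub_apply (ρ.ρ σ) 1 v, Module.End.one_apply,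
      LinearMap.zero_apply, LinearMap.sub_apply, LinearMap.smul_apply, Module.End.one_apply,
      sub_eq_zero] at h
    exact hback _ h

/-- **ORDINARY from the ordinary identities.** -/
theorem s59sto_ord_of_identities {p : ℕ} (hp : p.Prime) (hp2 : p ≠ 2)
    (ρ : GaloisRepAdic A) (hdet : ρ.DetIsCyclotomic p)
    (hId : ∀ P : ValuationSubring Qbar, P.LiesOverPrime p → S59stoId ρ P) :
    ρ.IsOrdinaryAt p :=
  fun P hP => s59sto_line_of_identities hp hp2 ρ hdet P hP (hId P hP)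

/-- an ordinary representation satisfies the ordinary identities. -/
theorem s59sto_identities_of_ord {p : ℕ} (ρ : GaloisRepAdic A) (hord : ρ.IsOrdinaryAt p)
    (P : ValuationSubring Qbar) (hP : P.LiesOverPrime p) : S59stoId ρ P := by
  obtain ⟨L, ⟨b, rfl⟩, hD, hI⟩ := hord P hP
  exact ⟨fun σ₁ hσ₁ σ hσ => s59sto_pt_inertia ρ b P hD hI hσ₁ hσ,
    fun σ₁ hσ₁ g hg => s59sto_pt_decomp ρ b P hD hI hσ₁ hg⟩

/-- **ORDINARY ⟺ the ordinary identities** (`det = χ`, `p` odd). -/
theorem s59sto_ord_iff_identities {p : ℕ} (hp : p.Prime) (hp2 : p ≠ 2)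
    (ρ : GaloisRepAdic A) (hdet : ρ.DetIsCyclotomic p) :
    ρ.IsOrdinaryAt p ↔ ∀ P : ValuationSubring Qbar, P.LiesOverPrime p → S59stoId ρ P :=
  ⟨fun h P hP => s59sto_identities_of_ord ρ h P hP, s59sto_ord_of_identities hp hp2 ρ hdet⟩

/-- **ordinarity descends along an injective local homomorphism.** -/
theorem s59sto_ord_of_injective {p : ℕ} (hp : p.Prime) (hp2 : p ≠ 2)
    (ρ : GaloisRepAdic A) (hdet : ρ.DetIsCyclotomic p)
    {B : Type} [CommRing B] [IsLocalRing B] (x : A →+* B) (hx : IsLocalHom x)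
    (hinj : Function.Injective x) (hord : (ρ.baseChangeAlong x hx).IsOrdinaryAt p) :
    ρ.IsOrdinaryAt p :=
  s59sto_ord_of_points hp hp2 ρ hdet (ι := Unit) (fun _ => B) (fun _ => x) (fun _ => hx)
    (fun a ha => hinj (by rw [ha (), map_zero])) (fun _ => hord)

end Fermat.Agent.S59

end
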